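import Fermat.Agent.S14.Thaine.Norm

/-!
# S14, package T2 (part): ramification indices in `K(ζ_ℓ)/K`

`K` the `p`-th cyclotomic field, `L = K(ζ_ℓ)`, `ℓ ≠ p` prime, `Q` a nonzero prime of `𝓞 L`.

* `ramificationIdx_of_not_mem` : `ℓ ∉ Q → Q.ramificationIdx (𝓞 K) = 1`.
* `ramificationIdx_of_mem` : `ℓ ∈ Q → Q.ramificationIdx (𝓞 K) = ℓ - 1`.
-/

set_option autoImplicit false

open NumberField Polynomial

namespace Fermat.Agent.S14.Thaine.Ram

open Fermat.Agent.S14.Thaine.Norm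

/-- A nonzero prime ideal of `ℤ` is generated by a prime number. -/
theorem exists_prime_span_eq (P : Ideal ℤ) [hP : P.IsPrime] (h0 : P ≠ ⊥) :
    ∃ r : ℕ, r.Prime ∧ P = Ideal.span {(r : ℤ)} := by
  have hgen := Ideal.span_singleton_generator P
  set n := Submodule.IsPrincipal.generator P with hn
  have hn0 : n ≠ 0 := by
    intro h
    rw [h] at hgen
    exact h0 (by rw [← hgen]; simp)
  have hprime : Prime n := by
    rw [← Ideal.span_singleton_prime hn0, hgen]; exact hP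
  refine ⟨n.natAbs, Int.prime_iff_natAbs_prime.1 hprime, ?_⟩
  rw [Int.span_natAbs, hgen]

variable {p ℓ : ℕ} [hp : Fact p.Prime] [hl : Fact ℓ.Prime]

/-- Primes of `L = K(ζ_ℓ)` not above `ℓ` are unramified over `K`. -/
theorem ramificationIdx_of_not_mem {K L : Type} [Field K] [NumberField K] [Field L] [NumberField L]
    [Algebra K L] [IsCyclotomicExtension {p} ℚ K] [IsCyclotomicExtension {ℓ} K L] (hpl : p ≠ ℓ)
    (Q : Ideal (𝓞 L)) [hQ : Q.IsPrime] (hQ0 : Q ≠ ⊥) (hℓ : (ℓ : 𝓞 L) ∉ Q) :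
    Q.ramificationIdx (𝓞 K) = 1 := by
  have : NeZero p := ⟨hp.out.ne_zero⟩
  have : NeZero ℓ := ⟨hl.out.ne_zero⟩
  have : NeZero (p * ℓ) := ⟨Nat.mul_ne_zero hp.out.ne_zero hl.out.ne_zero⟩
  have := isCyclotomicExtension_mul (p := p) (ℓ := ℓ) K L hpl
  have hunder : Q.under ℤ ≠ ⊥ := Ideal.under_ne_bot ℤ hQ0
  obtain ⟨r, hr, hrQ⟩ := exists_prime_span_eq (Q.under ℤ) hunder
  have : Fact r.Prime := ⟨hr⟩
  have hQr : Q.LiesOver (Ideal.span {(r : ℤ)}) := ⟨hrQ.symm⟩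
  set q := Q.under (𝓞 K) with hq
  have hqr : q.LiesOver (Ideal.span {(r : ℤ)}) := ⟨by rw [hq, Ideal.under_under, hrQ]⟩
  have htower := Ideal.ramificationIdx_tower (R := ℤ) q Q
  have hrl : r ≠ ℓ := by
    rintro rfl
    apply hℓ
    have h1 : ((r : ℤ)) ∈ Q.under ℤ := by rw [hrQ]; exact Ideal.mem_span_singleton_self _
    rw [Ideal.mem_comap] at h1
    simpa using h1
  by_cases hrp : r = p
  · subst hrp
    have h1 : Q.ramificationIdx ℤ = r ^ 0 * (r - 1) :=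
      IsCyclotomicExtension.Rat.ramificationIdx_eq (r * ℓ) L Q (m := ℓ) (k := 0) (by ring)
        (fun h => hrl ((Nat.prime_dvd_prime_iff_eq hr hl.out).1 h))
    have h2 : q.ramificationIdx ℤ = r - 1 :=
      IsCyclotomicExtension.Rat.ramificationIdx_eq_of_prime r K q
    rw [h1, h2, pow_zero, one_mul] at htower
    have hpos : 0 < r - 1 := Nat.sub_pos_of_lt hr.one_lt
    exact (Nat.eq_of_mul_eq_mul_left hpos (by rw [← htower, mul_one])).symm
  · have h1 : Q.ramificationIdx ℤ = 1 :=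
      IsCyclotomicExtension.Rat.ramificationIdx_eq_of_not_dvd r L Q (m := p * ℓ) (fun h => by
        rcases (Nat.Prime.dvd_mul hr).1 h with h | h
        · exact hrp ((Nat.prime_dvd_prime_iff_eq hr hp.out).1 h)
        · exact hrl ((Nat.prime_dvd_prime_iff_eq hr hl.out).1 h))
    rw [h1] at htower
    exact Nat.eq_one_of_mul_eq_one_left htower.symm

/-- Primes of `L = K(ζ_ℓ)` above `ℓ` are totally ramified over `K`. -/
theorem ramificationIdx_of_mem {K L : Type} [Field K] [NumberField K] [Field L] [NumberField L]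
    [Algebra K L] [IsCyclotomicExtension {p} ℚ K] [IsCyclotomicExtension {ℓ} K L] (hpl : p ≠ ℓ)
    (Q : Ideal (𝓞 L)) [hQ : Q.IsPrime] (hℓ : (ℓ : 𝓞 L) ∈ Q) :
    Q.ramificationIdx (𝓞 K) = ℓ - 1 := by
  have : NeZero p := ⟨hp.out.ne_zero⟩
  have : NeZero ℓ := ⟨hl.out.ne_zero⟩
  have : NeZero (p * ℓ) := ⟨Nat.mul_ne_zero hp.out.ne_zero hl.out.ne_zero⟩
  have := isCyclotomicExtension_mul (p := p) (ℓ := ℓ) K L hpl
  have hQ0 : Q ≠ ⊥ := by
    rintro rfl
    rw [Ideal.mem_bot] at hℓ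
    exact hl.out.ne_zero (by exact_mod_cast hℓ)
  have hunder : Q.under ℤ ≠ ⊥ := Ideal.under_ne_bot ℤ hQ0
  obtain ⟨r, hr, hrQ⟩ := exists_prime_span_eq (Q.under ℤ) hunder
  have hrl : r = ℓ := by
    have h1 : ((ℓ : ℤ)) ∈ Q.under ℤ := by
      rw [Ideal.mem_comap]; simpa using hℓ
    rw [hrQ, Ideal.mem_span_singleton] at h1
    exact (Nat.prime_dvd_prime_iff_eq hr hl.out).1 (by exact_mod_cast h1)
  subst hrl
  have hQr : Q.LiesOver (Ideal.span {(r : ℤ)}) := ⟨hrQ.symm⟩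
  set q := Q.under (𝓞 K) with hq
  have hqr : q.LiesOver (Ideal.span {(r : ℤ)}) := ⟨by rw [hq, Ideal.under_under, hrQ]⟩
  have htower := Ideal.ramificationIdx_tower (R := ℤ) q Q
  have hnd : ¬ r ∣ p := fun h => hpl ((Nat.prime_dvd_prime_iff_eq hr hp.out).1 h).symm
  have h1 : Q.ramificationIdx ℤ = r ^ 0 * (r - 1) :=
    IsCyclotomicExtension.Rat.ramificationIdx_eq (p * r) L Q (m := p) (k := 0) (by ring) hnd
  have h2 : q.ramificationIdx ℤ = 1 :=
    IsCyclotomicExtension.Rat.ramificationIdx_eq_of_not_dvd r K q (m := p) hnd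
  rw [h1, h2, pow_zero, one_mul, one_mul] at htower
  exact htower.symm

end Fermat.Agent.S14.Thaine.Ram
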