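import Mathlib

set_option autoImplicit false
set_option linter.style.haveILetI false
set_option linter.unusedVariables false

open scoped NumberField nonZeroDivisors
open Ideal NumberField

namespace Fermat.Agent.S14.Thaine.Ramification

theorem neZero_mul (p ℓ : ℕ) [hp : Fact p.Prime] [hl : Fact ℓ.Prime] : NeZero (p * ℓ) :=
  ⟨Nat.mul_ne_zero hp.out.ne_zero hl.out.ne_zero⟩

/-- `K'/K` is Galois. -/
theorem isGalois_top (p ℓ : ℕ) [hp : Fact p.Prime] [hl : Fact ℓ.Prime]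
    (K : Type*) [Field K] [NumberField K]
    (K' : Type*) [Field K'] [NumberField K'] [Algebra K K'] [IsCyclotomicExtension {p * ℓ} ℚ K'] :
    IsGalois K K' := by
  haveI : NeZero (p * ℓ) := neZero_mul p ℓ
  haveI : IsGalois ℚ K' := IsCyclotomicExtension.isGalois {p * ℓ} ℚ K'
  exact IsGalois.tower_top_of_isGalois ℚ K K'

/-- `[K' : K] = ℓ - 1`. -/
theorem finrank_top (p ℓ : ℕ) [hp : Fact p.Prime] [hl : Fact ℓ.Prime] (hpl : p ≠ ℓ)
    (K : Type*) [Field K] [NumberField K] [IsCyclotomicExtension {p} ℚ K]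
    (K' : Type*) [Field K'] [NumberField K'] [Algebra K K'] [IsCyclotomicExtension {p * ℓ} ℚ K'] :
    Module.finrank K K' = ℓ - 1 := by
  haveI : NeZero (p * ℓ) := neZero_mul p ℓ
  haveI : NeZero p := ⟨hp.out.ne_zero⟩
  have h1 : Module.finrank ℚ K' = (p * ℓ).totient :=
    IsCyclotomicExtension.finrank K' (Polynomial.cyclotomic.irreducible_rat (NeZero.pos _))
  have h2 : Module.finrank ℚ K = p.totient :=
    IsCyclotomicExtension.finrank K (Polynomial.cyclotomic.irreducible_rat (NeZero.pos _))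
  have h3 := Module.finrank_mul_finrank ℚ K K'
  have hcop : Nat.Coprime p ℓ := (Nat.coprime_primes hp.out hl.out).mpr hpl
  rw [h1, h2, Nat.totient_mul hcop, Nat.totient_prime hp.out, Nat.totient_prime hl.out] at h3
  have hp1 : 0 < p - 1 := Nat.sub_pos_of_lt hp.out.one_lt
  exact Nat.eq_of_mul_eq_mul_left hp1 h3


/-- Ramification index and inertia degree over `ℤ` of a prime of `K`, resp. of `K'`, and the
resulting relative ramification index and inertia degree of `K'/K`. -/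
theorem ramification_data (p ℓ : ℕ) [hp : Fact p.Prime] [hl : Fact ℓ.Prime] (hpl : p ≠ ℓ)
    (K : Type*) [Field K] [NumberField K] [IsCyclotomicExtension {p} ℚ K]
    (K' : Type*) [Field K'] [NumberField K'] [Algebra K K'] [IsCyclotomicExtension {p * ℓ} ℚ K']
    (Q : Ideal (𝓞 K')) [Q.IsPrime] (hQ : Q ≠ ⊥) :
    (((ℓ : 𝓞 K') ∈ Q) → Q.ramificationIdx (𝓞 K) = ℓ - 1 ∧ Q.inertiaDeg (𝓞 K) = 1) ∧
    (((ℓ : 𝓞 K') ∉ Q) → Q.ramificationIdx (𝓞 K) = 1) := by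
  haveI : NeZero (p * ℓ) := neZero_mul p ℓ
  haveI : NeZero p := ⟨hp.out.ne_zero⟩
  haveI : NeZero Q := ⟨hQ⟩
  set r : ℕ := absNorm (under ℤ Q) with hr
  have hrprime : r.Prime := Nat.absNorm_under_prime Q
  haveI : Fact r.Prime := ⟨hrprime⟩
  haveI hQr : Q.LiesOver (span {(r : ℤ)}) := Int.liesOver_span_absNorm Q
  set q : Ideal (𝓞 K) := Q.under (𝓞 K) with hq
  haveI : q.IsPrime := Ideal.IsPrime.under (𝓞 K) Q
  haveI hQq : Q.LiesOver q := ⟨rfl⟩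
  haveI hqr : q.LiesOver (span {(r : ℤ)}) := LiesOver.tower_bot Q q (span {(r : ℤ)})
  have hmem : (ℓ : 𝓞 K') ∈ Q ↔ r = ℓ := by
    have h := Int.cast_mem_ideal_iff (I := Q) (d := (ℓ : ℤ))
    rw [Int.cast_natCast] at h
    rw [h, Int.natCast_dvd_natCast, Nat.prime_dvd_prime_iff_eq hrprime hl.out]
  have htow := Ideal.ramificationIdx_tower (R := ℤ) q Q
  have htowf := Ideal.inertiaDeg_tower (R := ℤ) q Q
  have hlp : ¬ ℓ ∣ p := fun h => hpl ((Nat.prime_dvd_prime_iff_eq hl.out hp.out).mp h).symm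
  have hpl' : ¬ p ∣ ℓ := fun h => hpl ((Nat.prime_dvd_prime_iff_eq hp.out hl.out).mp h)
  refine ⟨fun hin => ?_, fun hnin => ?_⟩
  · have hrl : r = ℓ := hmem.mp hin
    have e1 : Q.ramificationIdx ℤ = r ^ 0 * (r - 1) :=
      IsCyclotomicExtension.Rat.ramificationIdx_eq (p * ℓ) (m := p) (k := 0) K' Q
        (by rw [hrl]; ring) (by rw [hrl]; exact hlp)
    have e2 : q.ramificationIdx ℤ = 1 :=
      IsCyclotomicExtension.Rat.ramificationIdx_eq_of_not_dvd (m := p) r K q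
        (by rw [hrl]; exact hlp)
    have f1 : Q.inertiaDeg ℤ = orderOf (r : ZMod p) :=
      IsCyclotomicExtension.Rat.inertiaDeg_eq (p * ℓ) (m := p) (k := 0) K' Q
        (by rw [hrl]; ring) (by rw [hrl]; exact hlp)
    have f2 : q.inertiaDeg ℤ = orderOf (r : ZMod p) :=
      IsCyclotomicExtension.Rat.inertiaDeg_eq_of_not_dvd (m := p) r K q
        (by rw [hrl]; exact hlp)
    rw [e1, e2, one_mul, pow_zero, one_mul, hrl] at htow
    rw [f1, f2] at htowf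
    refine ⟨htow.symm, ?_⟩
    have hpos : 0 < q.inertiaDeg ℤ := Ideal.inertiaDeg_pos q ℤ
    rw [f2] at hpos
    exact (Nat.eq_of_mul_eq_mul_left hpos (by rw [mul_one]; exact htowf)).symm
  · have hrl : r ≠ ℓ := fun h => hnin (hmem.mpr h)
    by_cases hrp : r = p
    · have e1 : Q.ramificationIdx ℤ = r ^ 0 * (r - 1) :=
        IsCyclotomicExtension.Rat.ramificationIdx_eq (p * ℓ) (m := ℓ) (k := 0) K' Q
          (by rw [hrp]; ring) (by rw [hrp]; exact hpl')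
      have e2 : q.ramificationIdx ℤ = r ^ 0 * (r - 1) :=
        IsCyclotomicExtension.Rat.ramificationIdx_eq p (m := 1) (k := 0) K q
          (by rw [hrp]; ring) (by rw [hrp]; exact hp.out.not_dvd_one)
      rw [e1, e2] at htow
      have hpos : 0 < r ^ 0 * (r - 1) := by
        rw [pow_zero, one_mul]; exact Nat.sub_pos_of_lt hrprime.one_lt
      exact (Nat.eq_of_mul_eq_mul_left hpos (by rw [mul_one]; exact htow)).symm
    · have hnd : ¬ r ∣ p * ℓ := by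
        intro h
        rcases (Nat.Prime.dvd_mul hrprime).mp h with h | h
        · exact hrp ((Nat.prime_dvd_prime_iff_eq hrprime hp.out).mp h)
        · exact hrl ((Nat.prime_dvd_prime_iff_eq hrprime hl.out).mp h)
      have hnd' : ¬ r ∣ p := fun h => hrp ((Nat.prime_dvd_prime_iff_eq hrprime hp.out).mp h)
      have e1 : Q.ramificationIdx ℤ = 1 :=
        IsCyclotomicExtension.Rat.ramificationIdx_eq_of_not_dvd (m := p * ℓ) r K' Q hnd
      have e2 : q.ramificationIdx ℤ = 1 :=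
        IsCyclotomicExtension.Rat.ramificationIdx_eq_of_not_dvd (m := p) r K q hnd'
      rw [e1, e2, one_mul] at htow
      exact htow.symm


/-- Above `ℓ` the extension `K'/K` is totally ramified: the whole Galois group is the inertia
group, i.e. every `σ ∈ Gal(K'/K)` acts trivially on `𝓞 K' / Q`. -/
theorem smul_sub_mem (p ℓ : ℕ) [hp : Fact p.Prime] [hl : Fact ℓ.Prime] (hpl : p ≠ ℓ)
    (K : Type*) [Field K] [NumberField K] [IsCyclotomicExtension {p} ℚ K]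
    (K' : Type*) [Field K'] [NumberField K'] [Algebra K K'] [IsCyclotomicExtension {p * ℓ} ℚ K']
    (Q : Ideal (𝓞 K')) [Q.IsPrime] (hQ : Q ≠ ⊥) (hlQ : (ℓ : 𝓞 K') ∈ Q)
    (σ : K' ≃ₐ[K] K') (x : 𝓞 K') : σ • x - x ∈ Q := by
  haveI : IsGalois K K' := isGalois_top p ℓ K K'
  set q : Ideal (𝓞 K) := Q.under (𝓞 K) with hq
  haveI : q.IsPrime := Ideal.IsPrime.under (𝓞 K) Q
  haveI hQq : Q.LiesOver q := ⟨rfl⟩
  have h1 := Ideal.card_inertia_eq_ramificationIdxIn (G := K' ≃ₐ[K] K') q Q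
  rw [Ideal.ramificationIdxIn_eq_ramificationIdx q Q (K' ≃ₐ[K] K'),
    ((ramification_data p ℓ hpl K K' Q hQ).1 hlQ).1, ← finrank_top p ℓ hpl K K',
    ← IsGalois.card_aut_eq_finrank K K'] at h1
  have h2 : Q.toAddSubgroup.inertia (K' ≃ₐ[K] K') = ⊤ := Subgroup.eq_top_of_card_eq _ h1
  have h3 : σ ∈ Q.toAddSubgroup.inertia (K' ≃ₐ[K] K') := h2 ▸ Subgroup.mem_top σ
  exact h3 x


/-- Above `ℓ` the residue field extension of `K'/K` is trivial. -/
theorem exists_sub_mem (p ℓ : ℕ) [hp : Fact p.Prime] [hl : Fact ℓ.Prime] (hpl : p ≠ ℓ)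
    (K : Type*) [Field K] [NumberField K] [IsCyclotomicExtension {p} ℚ K]
    (K' : Type*) [Field K'] [NumberField K'] [Algebra K K'] [IsCyclotomicExtension {p * ℓ} ℚ K']
    (Q : Ideal (𝓞 K')) [Q.IsPrime] (hQ : Q ≠ ⊥) (hlQ : (ℓ : 𝓞 K') ∈ Q) (x : 𝓞 K') :
    ∃ a : 𝓞 K, x - algebraMap (𝓞 K) (𝓞 K') a ∈ Q := by
  set q : Ideal (𝓞 K) := Q.under (𝓞 K) with hq
  haveI : q.IsPrime := Ideal.IsPrime.under (𝓞 K) Q
  haveI hQq : Q.LiesOver q := ⟨rfl⟩
  haveI : Q.IsMaximal := Ideal.IsPrime.isMaximal inferInstance hQ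
  haveI : q.IsMaximal := Ideal.IsMaximal.under (𝓞 K) Q
  have h1 := Ideal.inertiaDeg_eq_of_isMaximal q Q
  rw [((ramification_data p ℓ hpl K K' Q hQ).1 hlQ).2] at h1
  letI : Field (𝓞 K ⧸ q) := Ideal.Quotient.field q
  have h2 := Subalgebra.bot_eq_top_of_finrank_eq_one h1.symm
  have h3 : Ideal.Quotient.mk Q x ∈ (⊥ : Subalgebra (𝓞 K ⧸ q) (𝓞 K' ⧸ Q)) :=
    h2 ▸ Algebra.mem_top
  obtain ⟨a', ha'⟩ := Algebra.mem_bot.mp h3
  obtain ⟨a, rfl⟩ := Ideal.Quotient.mk_surjective a'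
  refine ⟨a, ?_⟩
  rw [← Ideal.Quotient.eq, ← ha']
  rfl


/-- Absolute ramification index above `ℓ` in `K' = ℚ(ζ_{pℓ})`. -/
theorem ramificationIdx_int (p ℓ : ℕ) [hp : Fact p.Prime] [hl : Fact ℓ.Prime] (hpl : p ≠ ℓ)
    (K' : Type*) [Field K'] [NumberField K'] [IsCyclotomicExtension {p * ℓ} ℚ K']
    (Q : Ideal (𝓞 K')) [Q.IsPrime] (hlQ : (ℓ : 𝓞 K') ∈ Q) :
    Q.ramificationIdx ℤ = ℓ - 1 := by
  haveI : NeZero (p * ℓ) := neZero_mul p ℓ
  have hlp : ¬ ℓ ∣ p := fun h => hpl ((Nat.prime_dvd_prime_iff_eq hl.out hp.out).mp h).symm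
  haveI hQl : Q.LiesOver (span {(ℓ : ℤ)}) := by
    refine ⟨?_⟩
    have hmax : (span {(ℓ : ℤ)}).IsMaximal := Int.ideal_span_isMaximal_of_prime ℓ
    refine (hmax.eq_of_le (Ideal.IsPrime.ne_top (Ideal.IsPrime.under ℤ Q)) ?_)
    rw [Ideal.span_singleton_le_iff_mem, Ideal.under_def, Ideal.mem_comap]
    simpa using hlQ
  have e1 : Q.ramificationIdx ℤ = ℓ ^ 0 * (ℓ - 1) :=
    IsCyclotomicExtension.Rat.ramificationIdx_eq (p * ℓ) (m := p) (k := 0) K' Q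
      (by ring) hlp
  rw [e1, pow_zero, one_mul]


/-- `ζ_ℓ - 1` is a uniformizer at every prime of `K'` above `ℓ`. -/
theorem zeta_sub_one_mem (p ℓ : ℕ) [hp : Fact p.Prime] [hl : Fact ℓ.Prime] (hpl : p ≠ ℓ)
    (K' : Type*) [Field K'] [NumberField K'] [IsCyclotomicExtension {p * ℓ} ℚ K']
    (Q : Ideal (𝓞 K')) [Q.IsPrime] (hlQ : (ℓ : 𝓞 K') ∈ Q)
    {ζ' : K'} (hζ' : IsPrimitiveRoot ζ' ℓ) :
    hζ'.toInteger - 1 ∈ Q ∧ hζ'.toInteger - 1 ∉ Q ^ 2 := by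
  have hass : Associated ((hζ'.toInteger - 1) ^ (ℓ - 1)) (ℓ : 𝓞 K') :=
    IsCyclotomicExtension.Rat.associated_zeta_sub_one_pow_prime ℓ hζ'
  have hmem : hζ'.toInteger - 1 ∈ Q := by
    have h1 : (hζ'.toInteger - 1) ^ (ℓ - 1) ∈ Q := by
      obtain ⟨u, hu⟩ := hass.symm
      rw [← hu]
      exact Q.mul_mem_right _ hlQ
    exact Ideal.IsPrime.mem_of_pow_mem inferInstance _ h1
  refine ⟨hmem, fun hsq => ?_⟩
  have hl0 : (ℓ : 𝓞 K') ≠ 0 := Nat.cast_ne_zero.mpr hl.out.ne_zero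
  have hQ0 : Q ≠ ⊥ := fun h => hl0 (by simpa [h] using hlQ)
  have hQprime : Prime Q := Ideal.prime_of_isPrime hQ0 inferInstance
  haveI hQl : Q.LiesOver (span {(ℓ : ℤ)}) := by
    refine ⟨?_⟩
    have hmax : (span {(ℓ : ℤ)}).IsMaximal := Int.ideal_span_isMaximal_of_prime ℓ
    refine (hmax.eq_of_le (Ideal.IsPrime.ne_top (Ideal.IsPrime.under ℤ Q)) ?_)
    rw [Ideal.span_singleton_le_iff_mem, Ideal.under_def, Ideal.mem_comap]
    simpa using hlQ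
  have hmap : (span {(ℓ : ℤ)}).map (algebraMap ℤ (𝓞 K')) = span {(ℓ : 𝓞 K')} := by
    rw [Ideal.map_span, Set.image_singleton]; simp
  have hne : (span {(ℓ : ℤ)}).map (algebraMap ℤ (𝓞 K')) ≠ ⊥ := by
    rw [hmap, Ne, Ideal.span_singleton_eq_bot]; exact hl0
  have he := Ideal.IsDedekindDomain.ramificationIdx_eq_multiplicity (span {(ℓ : ℤ)}) Q hne
  rw [ramificationIdx_int p ℓ hpl K' Q hlQ, hmap] at he
  -- `Q ^ (2 (ℓ - 1))` divides `(ℓ)`
  have hle : span {(ℓ : 𝓞 K')} ≤ Q ^ (2 * (ℓ - 1)) := by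
    rw [Ideal.span_singleton_le_iff_mem]
    obtain ⟨u, hu⟩ := hass
    rw [← hu, pow_mul]
    exact Ideal.mul_mem_right _ _ (Ideal.pow_mem_pow hsq _)
  have hdvd : Q ^ (2 * (ℓ - 1)) ∣ span {(ℓ : 𝓞 K')} := Ideal.dvd_iff_le.mpr hle
  have hfin : FiniteMultiplicity Q (span {(ℓ : 𝓞 K')}) :=
    FiniteMultiplicity.of_prime_left hQprime
      (by rw [Ne, Ideal.zero_eq_bot, Ideal.span_singleton_eq_bot]; exact hl0)
  have hk := hfin.le_multiplicity_of_pow_dvd hdvd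
  have h2 : 2 ≤ ℓ := hl.out.two_le
  omega


/-- Transfer of multiplicities along `𝓞 K → 𝓞 K'` (any extension of number fields). -/
theorem multiplicity_algebraMap
    (K : Type*) [Field K] [NumberField K]
    (K' : Type*) [Field K'] [NumberField K'] [Algebra K K']
    (Q : Ideal (𝓞 K')) [Q.IsPrime] (hQ : Q ≠ ⊥) (x : 𝓞 K) (hx : x ≠ 0) :
    multiplicity Q (span {algebraMap (𝓞 K) (𝓞 K') x}) =
      Q.ramificationIdx (𝓞 K) * multiplicity (Q.under (𝓞 K)) (span {x}) := by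
  set q : Ideal (𝓞 K) := Q.under (𝓞 K) with hq
  haveI : q.IsPrime := Ideal.IsPrime.under (𝓞 K) Q
  haveI hQq : Q.LiesOver q := ⟨rfl⟩
  have hq0 : q ≠ ⊥ := by
    intro h
    exact hQ (Ideal.eq_bot_of_comap_eq_bot (R := 𝓞 K) (by rw [← Ideal.under_def, ← hq, h]))
  have hQprime : Prime Q := Ideal.prime_of_isPrime hQ inferInstance
  have hqprime : Prime q := Ideal.prime_of_isPrime hq0 inferInstance
  have hx' : span {x} ≠ (⊥ : Ideal (𝓞 K)) := by
    rw [Ne, Ideal.span_singleton_eq_bot]; exact hx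
  have hx'' : (span {algebraMap (𝓞 K) (𝓞 K') x} : Ideal (𝓞 K')) ≠ 0 := by
    rw [Ne, Ideal.zero_eq_bot, Ideal.span_singleton_eq_bot]
    exact fun h => hx ((FaithfulSMul.algebraMap_injective (𝓞 K) (𝓞 K'))
      (by rw [h, map_zero]))
  have h := Ideal.IsDedekindDomain.emultiplicity_map_eq_ramificationIdx'_mul (R := 𝓞 K)
    (S := 𝓞 K') (v := q) (w := Q) hx' hqprime.irreducible hQprime.irreducible hQ
  rw [Ideal.map_span, Set.image_singleton, Ideal.ramificationIdx'_eq_ramificationIdx q Q hq0,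
    (FiniteMultiplicity.of_prime_left hQprime hx'').emultiplicity_eq_multiplicity,
    (FiniteMultiplicity.of_prime_left hqprime
      (by rwa [Ne, Ideal.zero_eq_bot])).emultiplicity_eq_multiplicity] at h
  exact_mod_cast h


/-- `x ∈ q ^ r ↔ x ∈ Q ^ (e r)` for `q = Q ∩ 𝓞 K` (any extension of number fields). -/
theorem mem_pow_iff
    (K : Type*) [Field K] [NumberField K]
    (K' : Type*) [Field K'] [NumberField K'] [Algebra K K']
    (Q : Ideal (𝓞 K')) [Q.IsPrime] (hQ : Q ≠ ⊥) (x : 𝓞 K) (r : ℕ) :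
    x ∈ (Q.under (𝓞 K)) ^ r ↔
      algebraMap (𝓞 K) (𝓞 K') x ∈ Q ^ (Q.ramificationIdx (𝓞 K) * r) := by
  rcases eq_or_ne x 0 with rfl | hx
  · simp
  set q : Ideal (𝓞 K) := Q.under (𝓞 K) with hq
  haveI : q.IsPrime := Ideal.IsPrime.under (𝓞 K) Q
  have hq0 : q ≠ ⊥ := by
    intro h
    exact hQ (Ideal.eq_bot_of_comap_eq_bot (R := 𝓞 K) (by rw [← Ideal.under_def, ← hq, h]))
  have hQprime : Prime Q := Ideal.prime_of_isPrime hQ inferInstance
  have hqprime : Prime q := Ideal.prime_of_isPrime hq0 inferInstance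
  have hx' : (span {x} : Ideal (𝓞 K)) ≠ 0 := by
    rw [Ne, Ideal.zero_eq_bot, Ideal.span_singleton_eq_bot]; exact hx
  have hx'' : (span {algebraMap (𝓞 K) (𝓞 K') x} : Ideal (𝓞 K')) ≠ 0 := by
    rw [Ne, Ideal.zero_eq_bot, Ideal.span_singleton_eq_bot]
    exact fun h => hx ((FaithfulSMul.algebraMap_injective (𝓞 K) (𝓞 K'))
      (by rw [h, map_zero]))
  have hepos : 0 < Q.ramificationIdx (𝓞 K) := Ideal.ramificationIdx_pos Q (𝓞 K)
  rw [← Ideal.span_singleton_le_iff_mem, ← Ideal.dvd_iff_le,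
    (FiniteMultiplicity.of_prime_left hqprime hx').pow_dvd_iff_le_multiplicity,
    ← Ideal.span_singleton_le_iff_mem, ← Ideal.dvd_iff_le,
    (FiniteMultiplicity.of_prime_left hQprime hx'').pow_dvd_iff_le_multiplicity,
    multiplicity_algebraMap K K' Q hQ x hx]
  exact (Nat.mul_le_mul_left_iff hepos).symm

/-- Above `ℓ`: `x ∈ q ^ r ↔ x ∈ Q ^ ((ℓ - 1) r)`. -/
theorem mem_pow_iff_of_mem (p ℓ : ℕ) [hp : Fact p.Prime] [hl : Fact ℓ.Prime] (hpl : p ≠ ℓ)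
    (K : Type*) [Field K] [NumberField K] [IsCyclotomicExtension {p} ℚ K]
    (K' : Type*) [Field K'] [NumberField K'] [Algebra K K'] [IsCyclotomicExtension {p * ℓ} ℚ K']
    (Q : Ideal (𝓞 K')) [Q.IsPrime] (hQ : Q ≠ ⊥) (hlQ : (ℓ : 𝓞 K') ∈ Q) (x : 𝓞 K) (r : ℕ) :
    x ∈ (Q.under (𝓞 K)) ^ r ↔ algebraMap (𝓞 K) (𝓞 K') x ∈ Q ^ ((ℓ - 1) * r) := by
  rw [mem_pow_iff K K' Q hQ x r, ((ramification_data p ℓ hpl K K' Q hQ).1 hlQ).1]

/-- Away from `ℓ`: `x ∈ q ^ r ↔ x ∈ Q ^ r`. -/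
theorem mem_pow_iff_of_not_mem (p ℓ : ℕ) [hp : Fact p.Prime] [hl : Fact ℓ.Prime] (hpl : p ≠ ℓ)
    (K : Type*) [Field K] [NumberField K] [IsCyclotomicExtension {p} ℚ K]
    (K' : Type*) [Field K'] [NumberField K'] [Algebra K K'] [IsCyclotomicExtension {p * ℓ} ℚ K']
    (Q : Ideal (𝓞 K')) [Q.IsPrime] (hQ : Q ≠ ⊥) (hlQ : (ℓ : 𝓞 K') ∉ Q) (x : 𝓞 K) (r : ℕ) :
    x ∈ (Q.under (𝓞 K)) ^ r ↔ algebraMap (𝓞 K) (𝓞 K') x ∈ Q ^ r := by
  rw [mem_pow_iff K K' Q hQ x r, (ramification_data p ℓ hpl K K' Q hQ).2 hlQ, one_mul]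

/-- `galRestrict` form of `smul_sub_mem`. -/
theorem galRestrict_sub_mem (p ℓ : ℕ) [hp : Fact p.Prime] [hl : Fact ℓ.Prime] (hpl : p ≠ ℓ)
    (K : Type*) [Field K] [NumberField K] [IsCyclotomicExtension {p} ℚ K]
    (K' : Type*) [Field K'] [NumberField K'] [Algebra K K'] [IsCyclotomicExtension {p * ℓ} ℚ K']
    (Q : Ideal (𝓞 K')) [Q.IsPrime] (hQ : Q ≠ ⊥) (hlQ : (ℓ : 𝓞 K') ∈ Q)
    (σ : K' ≃ₐ[K] K') (x : 𝓞 K') : galRestrict (𝓞 K) K K' (𝓞 K') σ x - x ∈ Q := by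
  have h : galRestrict (𝓞 K) K K' (𝓞 K') σ x = σ • x := by
    apply RingOfIntegers.ext
    exact algebraMap_galRestrict_apply (𝓞 K) σ x
  rw [h]
  exact smul_sub_mem p ℓ hpl K K' Q hQ hlQ σ x

/-- Every prime of `𝓞 K'` above `ℓ` is stable under `Gal(K'/K)`. -/
theorem galRestrict_mem_iff (p ℓ : ℕ) [hp : Fact p.Prime] [hl : Fact ℓ.Prime] (hpl : p ≠ ℓ)
    (K : Type*) [Field K] [NumberField K] [IsCyclotomicExtension {p} ℚ K]
    (K' : Type*) [Field K'] [NumberField K'] [Algebra K K'] [IsCyclotomicExtension {p * ℓ} ℚ K']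
    (Q : Ideal (𝓞 K')) [Q.IsPrime] (hQ : Q ≠ ⊥) (hlQ : (ℓ : 𝓞 K') ∈ Q)
    (σ : K' ≃ₐ[K] K') (x : 𝓞 K') : galRestrict (𝓞 K) K K' (𝓞 K') σ x ∈ Q ↔ x ∈ Q := by
  have h := galRestrict_sub_mem p ℓ hpl K K' Q hQ hlQ σ x
  constructor
  · intro h1
    have := Q.sub_mem h1 h
    simpa using this
  · intro h1
    have := Q.add_mem h h1
    simpa using this


/-- Lying over: a nonzero prime of `𝓞 K` is the contraction of a nonzero prime of `𝓞 K'`. -/
theorem exists_prime_over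
    (K : Type*) [Field K] [NumberField K]
    (K' : Type*) [Field K'] [NumberField K'] [Algebra K K']
    (q : Ideal (𝓞 K)) [q.IsPrime] (hq : q ≠ ⊥) :
    ∃ Q : Ideal (𝓞 K'), Q.IsPrime ∧ Q ≠ ⊥ ∧ Q.under (𝓞 K) = q := by
  obtain ⟨Q, hQ1, hQ2⟩ := Ideal.exists_ideal_over_prime_of_isIntegral q (⊥ : Ideal (𝓞 K'))
    (by simp)
  refine ⟨Q, hQ2.1, ?_, hQ2.2⟩
  rintro rfl
  apply hq
  rw [← hQ2.2]
  exact Ideal.comap_bot_of_injective _ (FaithfulSMul.algebraMap_injective (𝓞 K) (𝓞 K'))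

/-- A natural number lies in `Q` iff it lies in `Q ∩ 𝓞 K`. -/
theorem natCast_mem_under_iff
    (K : Type*) [Field K] [NumberField K]
    (K' : Type*) [Field K'] [NumberField K'] [Algebra K K']
    (Q : Ideal (𝓞 K')) (n : ℕ) : (n : 𝓞 K) ∈ Q.under (𝓞 K) ↔ (n : 𝓞 K') ∈ Q := by
  rw [Ideal.under_def, Ideal.mem_comap, map_natCast]

end Fermat.Agent.S14.Thaine.Ramification
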