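import Fermat.Agent.S14.Thaine.Norm

/-!
# S14, package T (helpers for T2/T3): trivial action modulo `(ζ_ℓ - 1)`, Hilbert 90 with units

`K` the `p`-th cyclotomic field, `L = K(ζ_ℓ)`, `ℓ ≠ p` prime.

* `zeta_sub_one_mem` : a prime of `𝓞 L` containing `ℓ` contains `ζ_ℓ - 1`.
* `adjoin_induction` : induction principle for `𝓞 L = ℤ[ζ_p ζ_ℓ]`.
* `galRestrict_sub_mem` : `σ x - x ∈ Q` for every `σ ∈ Gal(L/K)`, `x ∈ 𝓞 L`, if `ζ_ℓ - 1 ∈ Q`.
* `exists_sub_algebraMap_mem` : every `x ∈ 𝓞 L` is congruent mod `Q` to an element of `𝓞 K`.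
* `exists_hilbert90_unit` : Hilbert 90 in the form `τ β = ξ β`, `ξ = 1 + ζ_p ζ_ℓ` a unit of `𝓞 L`.
-/

set_option autoImplicit false

open NumberField Polynomial

namespace Fermat.Agent.S14.Thaine.TrivAct

open Fermat.Agent.S14.Thaine.Norm

variable {p ℓ : ℕ} [hp : Fact p.Prime] [hl : Fact ℓ.Prime]

/-- A prime of `𝓞 L` containing `ℓ` contains `ζ_ℓ - 1`. -/
theorem zeta_sub_one_mem {L : Type} [Field L] [NumberField L] {ζl : 𝓞 L}
    (hζl : IsPrimitiveRoot ζl ℓ) (Q : Ideal (𝓞 L)) [hQ : Q.IsPrime] (hℓ : (ℓ : 𝓞 L) ∈ Q) :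
    ζl - 1 ∈ Q := by
  obtain ⟨n, hn⟩ : ∃ n, ℓ = n + 1 := ⟨ℓ - 1, by have := hl.out.pos; omega⟩
  have hζl' : IsPrimitiveRoot ζl (n + 1) := hn ▸ hζl
  have hprod := hζl'.prod_one_sub_pow_eq_order
  have hmem : ∏ k ∈ Finset.range n, (1 - ζl ^ (k + 1)) ∈ Q := by
    rw [hprod]
    have : ((n : 𝓞 L) + 1) = ((ℓ : ℕ) : 𝓞 L) := by rw [hn]; push_cast; rfl
    rw [this]; exact hℓ
  obtain ⟨k, hk, hkmem⟩ := (hQ.prod_mem_iff).1 hmem
  rw [Finset.mem_range] at hk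
  -- work in the quotient
  have h1 : (Ideal.Quotient.mk Q ζl) ^ (k + 1) = 1 := by
    rw [← map_pow, ← sub_eq_zero, ← map_one (Ideal.Quotient.mk Q), ← map_sub,
      Ideal.Quotient.eq_zero_iff_mem]
    have : ζl ^ (k + 1) - 1 = -(1 - ζl ^ (k + 1)) := by ring
    rw [this]; exact Q.neg_mem hkmem
  have h2 : (Ideal.Quotient.mk Q ζl) ^ ℓ = 1 := by
    rw [← map_pow, hζl.pow_eq_one, map_one]
  have h3 := pow_gcd_eq_one.2 ⟨h1, h2⟩
  have hcop : Nat.gcd (k + 1) ℓ = 1 := by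
    rw [Nat.gcd_comm]
    exact (Nat.Prime.coprime_iff_not_dvd hl.out).2 (fun hdvd => by
      have := Nat.le_of_dvd (Nat.succ_pos k) hdvd
      omega)
  rw [hcop, pow_one] at h3
  rw [← Ideal.Quotient.eq_zero_iff_mem, map_sub, h3, map_one, sub_self]

/-- `𝓞 L = ℤ[ζ_p ζ_ℓ]`: induction principle. -/
theorem adjoin_induction {K L : Type} [Field K] [NumberField K] [Field L] [NumberField L]
    [Algebra K L] [IsCyclotomicExtension {p} ℚ K] [IsCyclotomicExtension {ℓ} K L] (hpl : p ≠ ℓ)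
    {ζ : K} (hζ : IsPrimitiveRoot ζ p) {ζl : L} (hζl : IsPrimitiveRoot ζl ℓ)
    (P : 𝓞 L → Prop)
    (hgen : ∀ ω : 𝓞 L, (ω : L) = algebraMap K L ζ * ζl → P ω)
    (hint : ∀ n : ℤ, P (n : 𝓞 L))
    (hadd : ∀ x y, P x → P y → P (x + y)) (hmul : ∀ x y, P x → P y → P (x * y)) (x : 𝓞 L) :
    P x := by
  have : NeZero (p * ℓ) := ⟨Nat.mul_ne_zero hp.out.ne_zero hl.out.ne_zero⟩
  have := isCyclotomicExtension_mul (p := p) (ℓ := ℓ) K L hpl
  have hcop : Nat.Coprime p ℓ := (Nat.coprime_primes hp.out hl.out).2 hpl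
  have hprod : IsPrimitiveRoot (algebraMap K L ζ * ζl) (p * ℓ) :=
    isPrimitiveRoot_mul_of_coprime (hζ.map_of_injective (algebraMap K L).injective) hζl hcop
  have htop := IsCyclotomicExtension.Rat.adjoin_singleton_eq_top hprod
  have hx : x ∈ Algebra.adjoin ℤ {hprod.toInteger} := by rw [htop]; exact Algebra.mem_top
  induction hx using Algebra.adjoin_induction with
  | mem y hy =>
    rw [Set.mem_singleton_iff] at hy
    exact hgen y (by rw [hy]; rfl)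
  | algebraMap r => simpa using hint r
  | add x y _ _ hx hy => exact hadd x y hx hy
  | mul x y _ _ hx hy => exact hmul x y hx hy

/-- Every `K`-automorphism of `L = K(ζ_ℓ)` acts trivially modulo an ideal containing `ζ_ℓ - 1`. -/
theorem galRestrict_sub_mem {K L : Type} [Field K] [NumberField K] [Field L] [NumberField L]
    [Algebra K L] [IsCyclotomicExtension {p} ℚ K] [IsCyclotomicExtension {ℓ} K L] (hpl : p ≠ ℓ)
    {ζ : K} (hζ : IsPrimitiveRoot ζ p) {ζl : 𝓞 L} (hζl : IsPrimitiveRoot ζl ℓ)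
    (Q : Ideal (𝓞 L)) (hQ : ζl - 1 ∈ Q) (σ : L ≃ₐ[K] L) (x : 𝓞 L) :
    galRestrict (𝓞 K) K L (𝓞 L) σ x - x ∈ Q := by
  have : NeZero ℓ := ⟨hl.out.ne_zero⟩
  have hζlL : IsPrimitiveRoot (ζl : L) ℓ :=
    hζl.map_of_injective (f := algebraMap (𝓞 L) L) (RingOfIntegers.coe_injective)
  set ρ := galRestrict (𝓞 K) K L (𝓞 L) σ with hρ
  have hq1 : Ideal.Quotient.mk Q ζl = 1 := by
    rw [← sub_eq_zero, ← map_one (Ideal.Quotient.mk Q), ← map_sub,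
      Ideal.Quotient.eq_zero_iff_mem]
    exact hQ
  refine adjoin_induction (p := p) hpl hζ hζlL (fun x => ρ x - x ∈ Q) ?_ ?_ ?_ ?_ x
  · intro ω hω
    -- ω = ζ' * ζl with ζ' from K
    have hζint : IsIntegral ℤ ζ := hζ.isIntegral hp.out.pos
    let ζ' : 𝓞 K := ⟨ζ, hζint⟩
    have hω' : ω = algebraMap (𝓞 K) (𝓞 L) ζ' * ζl := by
      apply RingOfIntegers.ext
      rw [hω]
      rfl
    have hσ : ρ ζl = ζl ^ (hζlL.autToPow K σ : ZMod ℓ).val := by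
      apply RingOfIntegers.ext
      have h1 : ((ρ ζl : 𝓞 L) : L) = σ (ζl : L) := algebraMap_galRestrict_apply (𝓞 K) σ ζl
      rw [h1, ← hζlL.autToPow_spec K σ]
      rfl
    rw [hω', map_mul, AlgEquiv.commutes, hσ, ← Ideal.Quotient.eq_zero_iff_mem, map_sub, map_mul,
      map_mul, map_pow, hq1, one_pow, sub_self]
  · intro n
    simp
  · intro x y hx hy
    have : ρ (x + y) - (x + y) = (ρ x - x) + (ρ y - y) := by rw [map_add]; ring
    rw [this]; exact Q.add_mem hx hy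
  · intro x y hx hy
    have : ρ (x * y) - x * y = ρ x * (ρ y - y) + (ρ x - x) * y := by rw [map_mul]; ring
    rw [this]; exact Q.add_mem (Q.mul_mem_left _ hy) (Q.mul_mem_right _ hx)

/-- Residue degree one: every element of `𝓞 L` is congruent to an element of `𝓞 K` modulo an
ideal containing `ζ_ℓ - 1`. -/
theorem exists_sub_algebraMap_mem {K L : Type} [Field K] [NumberField K] [Field L] [NumberField L]
    [Algebra K L] [IsCyclotomicExtension {p} ℚ K] [IsCyclotomicExtension {ℓ} K L] (hpl : p ≠ ℓ)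
    {ζ : K} (hζ : IsPrimitiveRoot ζ p) {ζl : 𝓞 L} (hζl : IsPrimitiveRoot ζl ℓ)
    (Q : Ideal (𝓞 L)) (hQ : ζl - 1 ∈ Q) (x : 𝓞 L) :
    ∃ a : 𝓞 K, x - algebraMap (𝓞 K) (𝓞 L) a ∈ Q := by
  have hζlL : IsPrimitiveRoot (ζl : L) ℓ :=
    hζl.map_of_injective (f := algebraMap (𝓞 L) L) (RingOfIntegers.coe_injective)
  refine adjoin_induction (p := p) hpl hζ hζlL
    (fun x => ∃ a : 𝓞 K, x - algebraMap (𝓞 K) (𝓞 L) a ∈ Q) ?_ ?_ ?_ ?_ x
  · intro ω hω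
    have hζint : IsIntegral ℤ ζ := hζ.isIntegral hp.out.pos
    let ζ' : 𝓞 K := ⟨ζ, hζint⟩
    have hω' : ω = algebraMap (𝓞 K) (𝓞 L) ζ' * ζl := by
      apply RingOfIntegers.ext
      rw [hω]
      rfl
    refine ⟨ζ', ?_⟩
    have : ω - algebraMap (𝓞 K) (𝓞 L) ζ' = algebraMap (𝓞 K) (𝓞 L) ζ' * (ζl - 1) := by
      rw [hω']; ring
    rw [this]; exact Q.mul_mem_left _ hQ
  · intro n
    exact ⟨(n : 𝓞 K), by simp⟩
  · rintro x y ⟨a, ha⟩ ⟨b, hb⟩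
    refine ⟨a + b, ?_⟩
    have : x + y - algebraMap (𝓞 K) (𝓞 L) (a + b)
        = (x - algebraMap (𝓞 K) (𝓞 L) a) + (y - algebraMap (𝓞 K) (𝓞 L) b) := by
      rw [map_add]; ring
    rw [this]; exact Q.add_mem ha hb
  · rintro x y ⟨a, ha⟩ ⟨b, hb⟩
    refine ⟨a * b, ?_⟩
    have : x * y - algebraMap (𝓞 K) (𝓞 L) (a * b)
        = x * (y - algebraMap (𝓞 K) (𝓞 L) b) + (x - algebraMap (𝓞 K) (𝓞 L) a) *
          algebraMap (𝓞 K) (𝓞 L) b := by
      rw [map_mul]; ring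
    rw [this]; exact Q.add_mem (Q.mul_mem_left _ hb) (Q.mul_mem_right _ ha)

/-- Integral Hilbert 90 for `ξ = 1 + ζ_p ζ_ℓ`, in the orientation `τ β = ξ β`, with `ξ` as a unit
of `𝓞 L` and `τ` restricted to `𝓞 L`. -/
theorem exists_hilbert90_unit {K L : Type} [Field K] [NumberField K] [Field L] [NumberField L]
    [Algebra K L] [IsCyclotomicExtension {p} ℚ K] [IsCyclotomicExtension {ℓ} K L]
    (hp2 : p ≠ 2) (hdvd : p ∣ ℓ - 1)
    {ζ : K} (hζ : IsPrimitiveRoot ζ p) {ζl : L} (hζl : IsPrimitiveRoot ζl ℓ) :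
    ∃ (τ : L ≃ₐ[K] L) (s : ℕ) (β : 𝓞 L) (ξ : (𝓞 L)ˣ), (∀ x, x ∈ Subgroup.zpowers τ) ∧
      τ ζl = ζl ^ s ∧ β ≠ 0 ∧ ((ξ : 𝓞 L) : L) = 1 + algebraMap K L ζ * ζl ∧
      galRestrict (𝓞 K) K L (𝓞 L) τ β = ξ * β := by
  have : NeZero ℓ := ⟨hl.out.ne_zero⟩
  have : NeZero p := ⟨hp.out.ne_zero⟩
  have hcyc : IsCyclic (L ≃ₐ[K] L) := isCyclic_gal (ℓ := ℓ) K L
  have hgal : IsGalois K L := IsCyclotomicExtension.isGalois {ℓ} K L
  obtain ⟨τ, hτ⟩ := IsCyclic.exists_generator (α := L ≃ₐ[K] L)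
  have hξint : IsIntegral ℤ (1 + algebraMap K L ζ * ζl) := by
    refine IsIntegral.add isIntegral_one (IsIntegral.mul ?_ (hζl.isIntegral hl.out.pos))
    exact (hζ.isIntegral hp.out.pos).map (IsScalarTower.toAlgHom ℤ K L)
  let ξ : 𝓞 L := ⟨1 + algebraMap K L ζ * ζl, hξint⟩
  have hnorm : Algebra.norm K (algebraMap (𝓞 L) L ξ) = 1 :=
    norm_one_add_mul (p := p) hp2 hdvd hζ hζl
  have hξu : IsUnit ξ := by
    rw [← RingOfIntegers.isUnit_norm_of_isGalois K]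
    have : RingOfIntegers.norm K ξ = 1 := by
      apply RingOfIntegers.ext
      rw [RingOfIntegers.coe_norm]
      exact hnorm
    rw [this]; exact isUnit_one
  obtain ⟨u, hu⟩ := hξu
  have hnorm' : Algebra.norm K (algebraMap (𝓞 L) L ((u⁻¹ : (𝓞 L)ˣ) : 𝓞 L)) = 1 := by
    have h1 : algebraMap (𝓞 L) L ((u⁻¹ : (𝓞 L)ˣ) : 𝓞 L) * algebraMap (𝓞 L) L ξ = 1 := by
      rw [← map_mul, ← hu, Units.inv_mul, map_one]
    have h2 := congrArg (Algebra.norm K) h1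
    rw [map_mul, hnorm, mul_one, map_one] at h2
    exact h2
  obtain ⟨β, hβ0, hβ⟩ := groupCohomology.exists_mul_galRestrict_of_norm_eq_one
    (A := 𝓞 K) (B := 𝓞 L) (K := K) (L := L) hτ hnorm'
  refine ⟨τ, (hζl.autToPow K τ : ZMod ℓ).val, β, u, hτ, (hζl.autToPow_spec K τ).symm, hβ0, ?_, ?_⟩
  · rw [hu]; rfl
  · nth_rewrite 2 [← hβ]
    rw [← mul_assoc, Units.mul_inv, one_mul]

end Fermat.Agent.S14.Thaine.TrivAct
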