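import Mathlib

/-!
# Package T3 of S14: valuations of `γ = N(b)` in Thaine's relation

Generic Dedekind-domain lemmas:

* `exists_mul_eq_pow_mul` : an element of exact `Q`-order `r` is, up to factors prime to `Q`,
  the `r`-th power of a uniformizer.
* `congr_of_inertia` : the local congruence `ξ₁ * s ^ r ≡ ξ₂ (mod Q)` deduced from
  `ξ₁ * τ b = ξ₂ * b` when `τ` acts trivially modulo `Q` and multiplies a uniformizer by `u ≡ s`.
-/

set_option autoImplicit false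

namespace Fermat.Agent.S14.Thaine.Valuations

section local_

variable {B : Type*} [CommRing B] [IsDedekindDomain B]

/-- In a Dedekind domain, an element of exact `Q`-order `r` is, up to factors prime to `Q`,
the `r`-th power of a uniformizer. -/
theorem exists_mul_eq_pow_mul (Q : Ideal B) [hQp : Q.IsPrime] (hQ : Q ≠ ⊥) (w : B) (hw : w ∈ Q)
    (hw2 : w ∉ Q ^ 2) (b : B) (r : ℕ) (hr : b ∈ Q ^ r) (hr' : b ∉ Q ^ (r + 1)) :
    ∃ y z : B, y ∉ Q ∧ z ∉ Q ∧ y * b = w ^ r * z := by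
  have hmax : Q.IsMaximal := hQp.isMaximal hQ
  obtain ⟨J, hJ⟩ : Q ∣ Ideal.span {w} :=
    Ideal.dvd_iff_le.mpr ((Ideal.span_singleton_le_iff_mem Q).mpr hw)
  have hJQ : ¬ J ≤ Q := by
    intro h
    apply hw2
    have h1 : Ideal.span {w} ≤ Q ^ 2 := by
      rw [hJ, pow_two]
      exact Ideal.mul_mono_right h
    exact h1 (Ideal.mem_span_singleton_self w)
  obtain ⟨y0, hy0J, hy0Q⟩ := Set.not_subset.mp hJQ
  have hyb : y0 ^ r * b ∈ Ideal.span {w ^ r} := by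
    rw [← Ideal.span_singleton_pow, hJ, mul_pow, mul_comm (Q ^ r)]
    exact Ideal.mul_mem_mul (Ideal.pow_mem_pow hy0J r) hr
  obtain ⟨z, hz⟩ := Ideal.mem_span_singleton'.mp hyb
  refine ⟨y0 ^ r, z, fun h => hy0Q (hQp.mem_of_pow_mem r h), ?_, by rw [← hz]; ring⟩
  intro hzQ
  have h2 : y0 ^ r * b ∈ Q ^ (r + 1) := by
    rw [← hz, pow_succ, mul_comm z]
    exact Ideal.mul_mem_mul (Ideal.pow_mem_pow hw r) hzQ
  rcases Ideal.IsMaximal.mul_mem_pow Q h2 with h | h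
  · exact hy0Q (hQp.mem_of_pow_mem r h)
  · exact hr' h

/-- **Local congruence.** Let `τ` be a ring endomorphism acting trivially modulo the prime `Q`
(an element of the inertia group), let `w` be a uniformizer at `Q` with `τ w = w * u`, `u ≡ s`
modulo `Q`, and let `b` have exact `Q`-order `r`. If `ξ₁ * τ b = ξ₂ * b`, then
`ξ₁ * s ^ r ≡ ξ₂` modulo `Q`. -/
theorem congr_of_inertia (Q : Ideal B) [hQp : Q.IsPrime] (hQ : Q ≠ ⊥) (τ : B →+* B)
    (hτ : ∀ x, τ x - x ∈ Q) (w : B) (hw : w ∈ Q) (hw2 : w ∉ Q ^ 2) (u s : B)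
    (hu : τ w = w * u) (hus : u - s ∈ Q) (b ξ₁ ξ₂ : B) (hξ : ξ₁ * τ b = ξ₂ * b) (r : ℕ)
    (hr : b ∈ Q ^ r) (hr' : b ∉ Q ^ (r + 1)) : ξ₁ * s ^ r - ξ₂ ∈ Q := by
  obtain ⟨y, z, hy, hz, hyz⟩ := exists_mul_eq_pow_mul Q hQ w hw hw2 b r hr hr'
  have hw0 : w ≠ 0 := by
    rintro rfl
    exact hw2 (zero_mem _)
  have h0 : τ y * τ b = w ^ r * u ^ r * τ z := by
    have h := congrArg τ hyz
    rw [map_mul, map_mul, map_pow, hu, mul_pow] at h
    exact h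
  have h1 : w ^ r * (ξ₂ * τ y * z) = w ^ r * (ξ₁ * y * (u ^ r * τ z)) := by
    calc w ^ r * (ξ₂ * τ y * z) = τ y * ξ₂ * (w ^ r * z) := by ring
      _ = τ y * ξ₂ * (y * b) := by rw [hyz]
      _ = y * τ y * (ξ₂ * b) := by ring
      _ = y * τ y * (ξ₁ * τ b) := by rw [hξ]
      _ = y * ξ₁ * (τ y * τ b) := by ring
      _ = y * ξ₁ * (w ^ r * u ^ r * τ z) := by rw [h0]
      _ = w ^ r * (ξ₁ * y * (u ^ r * τ z)) := by ring
  have h2 : ξ₂ * τ y * z = ξ₁ * y * (u ^ r * τ z) := mul_left_cancel₀ (pow_ne_zero r hw0) h1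
  have hur : u ^ r - s ^ r ∈ Q := by
    obtain ⟨c, hc⟩ := sub_dvd_pow_sub_pow u s r
    rw [hc]
    exact Q.mul_mem_right _ hus
  have h3 : y * z * (ξ₁ * s ^ r - ξ₂) ∈ Q := by
    have e : y * z * (ξ₁ * s ^ r - ξ₂) =
        (ξ₁ * y * (u ^ r * τ z) - ξ₂ * τ y * z) + ξ₂ * z * (τ y - y)
          - ξ₁ * y * τ z * (u ^ r - s ^ r) - ξ₁ * y * s ^ r * (τ z - z) := by ring
    rw [e, h2, sub_self, zero_add]
    refine Q.sub_mem (Q.sub_mem ?_ ?_) ?_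
    · exact Q.mul_mem_left _ (hτ y)
    · exact Q.mul_mem_left _ hur
    · exact Q.mul_mem_left _ (hτ z)
  rcases hQp.mem_or_mem h3 with h | h
  · rcases hQp.mem_or_mem h with h | h
    · exact absurd h hy
    · exact absurd h hz
  · exact h

end local_

section transfer

variable {A B : Type*} [CommRing A] [IsDedekindDomain A] [CommRing B] [IsDedekindDomain B]
  [Algebra A B] [FaithfulSMul A B]

/-- **Multiplicity transfer.** If `γ ∈ A` becomes associated to `b ^ n` in `B`, then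
`e(Q|q) * ord_q(γ) = n * ord_Q(b)`. -/
theorem ramificationIdx_mul_multiplicity (q : Ideal A) (Q : Ideal B) [hq : q.IsPrime]
    [hQ : Q.IsPrime] (hq0 : q ≠ ⊥) (hQ0 : Q ≠ ⊥) [Q.LiesOver q] (γ : A) (hγ : γ ≠ 0) (b : B)
    (hb : b ≠ 0) (n : ℕ) (hassoc : Associated (algebraMap A B γ) (b ^ n)) :
    Ideal.ramificationIdx' q Q * multiplicity q (Ideal.span {γ}) =
      n * multiplicity Q (Ideal.span {b}) := by
  have hγ' : Ideal.span {γ} ≠ ⊥ := by simpa using hγ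
  have hb' : Ideal.span {b} ≠ ⊥ := by simpa using hb
  have hqP : Prime q := Ideal.prime_of_isPrime hq0 hq
  have hQP : Prime Q := Ideal.prime_of_isPrime hQ0 hQ
  have h1 := Ideal.IsDedekindDomain.emultiplicity_map_eq_ramificationIdx'_mul (I := Ideal.span {γ})
    hγ' hqP.irreducible hQP.irreducible hQ0 (v := q) (w := Q)
  rw [Ideal.map_span, Set.image_singleton, Ideal.span_singleton_eq_span_singleton.mpr hassoc,
    ← Ideal.span_singleton_pow, emultiplicity_pow hQP,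
    (FiniteMultiplicity.of_prime_left hQP hb').emultiplicity_eq_multiplicity,
    (FiniteMultiplicity.of_prime_left hqP hγ').emultiplicity_eq_multiplicity] at h1
  exact_mod_cast h1.symm

end transfer

section norm

open scoped NumberField

variable {K K' : Type*} [Field K] [NumberField K] [Field K'] [NumberField K'] [Algebra K K']

/-- If every Galois conjugate of `b` is associated to `b`, then the relative norm of `b` is
associated to `b ^ [K':K]` in `𝓞 K'`. -/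
theorem associated_norm_pow [IsGalois K K'] (b : 𝓞 K')
    (h : ∀ σ : K' ≃ₐ[K] K', Associated (galRestrict (𝓞 K) K K' (𝓞 K') σ b) b) :
    Associated (algebraMap (𝓞 K) (𝓞 K') (RingOfIntegers.norm K b))
      (b ^ Module.finrank K K') := by
  classical
  have key : algebraMap (𝓞 K) (𝓞 K') (RingOfIntegers.norm K b) =
      ∏ σ : K' ≃ₐ[K] K', galRestrict (𝓞 K) K K' (𝓞 K') σ b := by
    apply NumberField.RingOfIntegers.ext
    rw [RingOfIntegers.coe_algebraMap_norm, Algebra.norm_eq_prod_automorphisms]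
    show ∏ σ : K' ≃ₐ[K] K', σ (b : K') =
      algebraMap (𝓞 K') K' (∏ σ : K' ≃ₐ[K] K', galRestrict (𝓞 K) K K' (𝓞 K') σ b)
    rw [map_prod]
    refine Finset.prod_congr rfl fun σ _ => ?_
    exact (algebraMap_galRestrict_apply (𝓞 K) σ b).symm
  rw [key, ← IsGalois.card_aut_eq_finrank, Nat.card_eq_fintype_card, ← Finset.card_univ,
    ← Finset.prod_const]
  exact Associated.prod _ _ _ (fun σ _ => h σ)

/-- If a generator `τ` of the Galois group maps `b` to an associate, so does every element. -/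
theorem associated_of_zpowers (τ : K' ≃ₐ[K] K')
    (hgen : ∀ σ : K' ≃ₐ[K] K', σ ∈ Subgroup.zpowers τ) (b : 𝓞 K')
    (hτ : Associated (galRestrict (𝓞 K) K K' (𝓞 K') τ b) b) :
    ∀ σ : K' ≃ₐ[K] K', Associated (galRestrict (𝓞 K) K K' (𝓞 K') σ b) b := by
  let S : Subgroup (K' ≃ₐ[K] K') :=
    { carrier := {σ | Associated (galRestrict (𝓞 K) K K' (𝓞 K') σ b) b}
      mul_mem' := by
        intro σ σ' h h'
        show Associated (galRestrict (𝓞 K) K K' (𝓞 K') (σ * σ') b) b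
        rw [map_mul, AlgEquiv.mul_apply]
        exact (h'.map (galRestrict (𝓞 K) K K' (𝓞 K') σ)).trans h
      one_mem' := by
        show Associated (galRestrict (𝓞 K) K K' (𝓞 K') 1 b) b
        rw [map_one]
        exact Associated.refl b
      inv_mem' := by
        intro σ h
        show Associated (galRestrict (𝓞 K) K K' (𝓞 K') σ⁻¹ b) b
        rw [map_inv]
        have h1 := h.map ((galRestrict (𝓞 K) K K' (𝓞 K') σ)⁻¹)
        have h2 : (galRestrict (𝓞 K) K K' (𝓞 K') σ)⁻¹ (galRestrict (𝓞 K) K K' (𝓞 K') σ b) = b := by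
          rw [← AlgEquiv.mul_apply, inv_mul_cancel]
          rfl
        rw [h2] at h1
        exact h1.symm }
  have hS : Subgroup.zpowers τ ≤ S := (Subgroup.zpowers_le).mpr hτ
  exact fun σ => hS (hgen σ)

/-- Exact order: `b ∈ Q ^ r` and `b ∉ Q ^ (r + 1)` for `r = multiplicity Q (span {b})`. -/
theorem mem_pow_multiplicity {B : Type*} [CommRing B] [IsDedekindDomain B] (Q : Ideal B)
    [hQ : Q.IsPrime] (hQ0 : Q ≠ ⊥) (b : B) (hb : b ≠ 0) :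
    b ∈ Q ^ multiplicity Q (Ideal.span {b}) ∧ b ∉ Q ^ (multiplicity Q (Ideal.span {b}) + 1) := by
  have hb' : Ideal.span {b} ≠ ⊥ := by simpa using hb
  have hQP : Prime Q := Ideal.prime_of_isPrime hQ0 hQ
  have hfin : FiniteMultiplicity Q (Ideal.span {b}) := FiniteMultiplicity.of_prime_left hQP hb'
  constructor
  · have h := pow_multiplicity_dvd Q (Ideal.span {b})
    rw [Ideal.dvd_iff_le, Ideal.span_singleton_le_iff_mem] at h
    exact h
  · intro h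
    apply hfin.not_pow_dvd_of_multiplicity_lt (Nat.lt_succ_self _)
    rw [Ideal.dvd_iff_le, Ideal.span_singleton_le_iff_mem]
    exact h

/-- **T3 (valuations of `γ = N(b)`).** Let `K'/K` be a Galois extension of number fields of degree
`l - 1` whose Galois group is generated by `τ`. Let `ω ∈ 𝓞 K'` with `τ ω = ω ^ s`, let `ξ` be a
unit and `b ≠ 0` with `ξ * τ b = b`. Assume the primes of `K` not containing `l` are unramified in
`K'` and those containing `l` are totally ramified with uniformizer `ω - 1` and `τ` acting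
trivially on the residue field. Then `γ := N_{K'/K} b` satisfies:
* `(l - 1) ∣ ord_q γ` for every prime `q ∌ l`;
* `ξ * s ^ (ord_q γ) ≡ 1` modulo `Q` for every prime `Q ∣ q ∋ l`. -/
theorem thaine_valuations [IsGalois K K'] (l : ℕ) (τ : K' ≃ₐ[K] K')
    (hgen : ∀ σ : K' ≃ₐ[K] K', σ ∈ Subgroup.zpowers τ) (hdeg : Module.finrank K K' = l - 1)
    (ω : 𝓞 K') (s : ℕ) (hτω : galRestrict (𝓞 K) K K' (𝓞 K') τ ω = ω ^ s)
    (ξ b : 𝓞 K') (hξ : IsUnit ξ) (hb : b ≠ 0)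
    (hτb : ξ * galRestrict (𝓞 K) K K' (𝓞 K') τ b = b)
    (hun : ∀ (q : Ideal (𝓞 K)) (Q : Ideal (𝓞 K')), q.IsPrime → q ≠ ⊥ → Q.IsPrime → Q.LiesOver q →
      (l : 𝓞 K) ∉ q → Ideal.ramificationIdx' q Q = 1)
    (hram : ∀ (q : Ideal (𝓞 K)) (Q : Ideal (𝓞 K')), q.IsPrime → q ≠ ⊥ → Q.IsPrime → Q.LiesOver q →
      (l : 𝓞 K) ∈ q → Ideal.ramificationIdx' q Q = l - 1 ∧ ω - 1 ∈ Q ∧ ω - 1 ∉ Q ^ 2 ∧
        ∀ x : 𝓞 K', galRestrict (𝓞 K) K K' (𝓞 K') τ x - x ∈ Q) :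
    ∃ γ : 𝓞 K, γ ≠ 0 ∧
      (∀ q : Ideal (𝓞 K), q.IsPrime → q ≠ ⊥ → (l : 𝓞 K) ∉ q →
        (l - 1) ∣ multiplicity q (Ideal.span {γ})) ∧
      (∀ (q : Ideal (𝓞 K)) (Q : Ideal (𝓞 K')), q.IsPrime → q ≠ ⊥ → Q.IsPrime → Q.LiesOver q →
        (l : 𝓞 K) ∈ q → ξ * (s : 𝓞 K') ^ multiplicity q (Ideal.span {γ}) - 1 ∈ Q) := by
  have hτ_assoc : Associated (galRestrict (𝓞 K) K K' (𝓞 K') τ b) b :=
    ⟨hξ.unit, by rw [IsUnit.unit_spec, mul_comm]; exact hτb⟩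
  have hassoc : Associated (algebraMap (𝓞 K) (𝓞 K') (RingOfIntegers.norm K b)) (b ^ (l - 1)) := by
    rw [← hdeg]
    exact associated_norm_pow b (associated_of_zpowers τ hgen b hτ_assoc)
  have hl1 : l - 1 ≠ 0 := by
    rw [← hdeg]
    exact Module.finrank_pos.ne'
  have hγ : RingOfIntegers.norm K b ≠ 0 := by
    intro h0
    rw [h0, map_zero] at hassoc
    exact pow_ne_zero _ hb ((associated_zero_iff_eq_zero _).mp hassoc.symm)
  refine ⟨RingOfIntegers.norm K b, hγ, ?_, ?_⟩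
  · intro q hq hq0 hlq
    obtain ⟨⟨Q, hQ, hQq⟩⟩ := Ideal.nonempty_primesOver (S := 𝓞 K') q
    have hQ0 : Q ≠ ⊥ := Ideal.ne_bot_of_liesOver_of_ne_bot hq0 Q
    have h := ramificationIdx_mul_multiplicity q Q hq0 hQ0 _ hγ b hb (l - 1) hassoc
    rw [hun q Q hq hq0 hQ hQq hlq, one_mul] at h
    exact ⟨_, h⟩
  · intro q Q hq hq0 hQ hQq hlq
    obtain ⟨he, hw, hw2, hτQ⟩ := hram q Q hq hq0 hQ hQq hlq
    have hQ0 : Q ≠ ⊥ := Ideal.ne_bot_of_liesOver_of_ne_bot hq0 Q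
    have h := ramificationIdx_mul_multiplicity q Q hq0 hQ0 _ hγ b hb (l - 1) hassoc
    rw [he] at h
    have hmult : multiplicity q (Ideal.span {RingOfIntegers.norm K b}) =
        multiplicity Q (Ideal.span {b}) := Nat.eq_of_mul_eq_mul_left (Nat.pos_of_ne_zero hl1) h
    rw [hmult]
    obtain ⟨hr, hr'⟩ := mem_pow_multiplicity Q hQ0 b hb
    have hωi : ∀ i : ℕ, ω ^ i - 1 ∈ Q := by
      intro i
      obtain ⟨c, hc⟩ := sub_dvd_pow_sub_pow ω 1 i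
      rw [one_pow] at hc
      rw [hc]
      exact Q.mul_mem_right _ hw
    have hus : (∑ i ∈ Finset.range s, ω ^ i) - (s : 𝓞 K') ∈ Q := by
      have e : (∑ i ∈ Finset.range s, ω ^ i) - (s : 𝓞 K') = ∑ i ∈ Finset.range s, (ω ^ i - 1) := by
        rw [Finset.sum_sub_distrib, Finset.sum_const, Finset.card_range, nsmul_eq_mul, mul_one]
      rw [e]
      exact Q.sum_mem fun i _ => hωi i
    have key := congr_of_inertia Q hQ0
      ((galRestrict (𝓞 K) K K' (𝓞 K') τ : 𝓞 K' ≃ₐ[𝓞 K] 𝓞 K') : 𝓞 K' →+* 𝓞 K')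
      (fun x => hτQ x) (ω - 1) hw hw2 (∑ i ∈ Finset.range s, ω ^ i) (s : 𝓞 K')
      (by
        show galRestrict (𝓞 K) K K' (𝓞 K') τ (ω - 1) = _
        rw [map_sub, map_one, hτω, mul_geom_sum])
      hus b ξ 1 (by
        show ξ * galRestrict (𝓞 K) K K' (𝓞 K') τ b = 1 * b
        rw [hτb, one_mul]) _ hr hr'
    exact key

/-- **T3, final form** (the conclusion of `thaine_core`): with `ξ = 1 + z * ω`, `z ∈ 𝓞 K`. -/
theorem thaine_core_of_hilbert90 [IsGalois K K'] (l : ℕ) (τ : K' ≃ₐ[K] K')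
    (hgen : ∀ σ : K' ≃ₐ[K] K', σ ∈ Subgroup.zpowers τ) (hdeg : Module.finrank K K' = l - 1)
    (ω : 𝓞 K') (s : ℕ) (hτω : galRestrict (𝓞 K) K K' (𝓞 K') τ ω = ω ^ s)
    (z : 𝓞 K) (b : 𝓞 K') (hξ : IsUnit (1 + algebraMap (𝓞 K) (𝓞 K') z * ω)) (hb : b ≠ 0)
    (hτb : (1 + algebraMap (𝓞 K) (𝓞 K') z * ω) * galRestrict (𝓞 K) K K' (𝓞 K') τ b = b)
    (hun : ∀ (q : Ideal (𝓞 K)) (Q : Ideal (𝓞 K')), q.IsPrime → q ≠ ⊥ → Q.IsPrime → Q.LiesOver q →
      (l : 𝓞 K) ∉ q → Ideal.ramificationIdx' q Q = 1)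
    (hram : ∀ (q : Ideal (𝓞 K)) (Q : Ideal (𝓞 K')), q.IsPrime → q ≠ ⊥ → Q.IsPrime → Q.LiesOver q →
      (l : 𝓞 K) ∈ q → Ideal.ramificationIdx' q Q = l - 1 ∧ ω - 1 ∈ Q ∧ ω - 1 ∉ Q ^ 2 ∧
        ∀ x : 𝓞 K', galRestrict (𝓞 K) K K' (𝓞 K') τ x - x ∈ Q) :
    ∃ γ : 𝓞 K, γ ≠ 0 ∧
      (∀ q : IsDedekindDomain.HeightOneSpectrum (𝓞 K), (l : 𝓞 K) ∉ q.asIdeal →
        (l - 1) ∣ multiplicity q.asIdeal (Ideal.span {γ})) ∧
      (∀ q : IsDedekindDomain.HeightOneSpectrum (𝓞 K), (l : 𝓞 K) ∈ q.asIdeal →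
        (1 + z) * (s : 𝓞 K) ^ multiplicity q.asIdeal (Ideal.span {γ}) - 1 ∈ q.asIdeal) := by
  obtain ⟨γ, hγ, h1, h2⟩ := thaine_valuations l τ hgen hdeg ω s hτω _ b hξ hb hτb hun hram
  refine ⟨γ, hγ, fun q hlq => h1 q.asIdeal q.isPrime q.ne_bot hlq, fun q hlq => ?_⟩
  obtain ⟨⟨Q, hQ, hQq⟩⟩ := Ideal.nonempty_primesOver (S := 𝓞 K') q.asIdeal
  have hmem := h2 q.asIdeal Q q.isPrime q.ne_bot hQ hQq hlq
  obtain ⟨-, hw, -, -⟩ := hram q.asIdeal Q q.isPrime q.ne_bot hQ hQq hlq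
  set r := multiplicity q.asIdeal (Ideal.span {γ}) with hr
  have h3 : algebraMap (𝓞 K) (𝓞 K') ((1 + z) * (s : 𝓞 K) ^ r - 1) ∈ Q := by
    have e : algebraMap (𝓞 K) (𝓞 K') ((1 + z) * (s : 𝓞 K) ^ r - 1) =
        ((1 + algebraMap (𝓞 K) (𝓞 K') z * ω) * (s : 𝓞 K') ^ r - 1)
          - algebraMap (𝓞 K) (𝓞 K') z * (s : 𝓞 K') ^ r * (ω - 1) := by
      simp only [map_sub, map_mul, map_add, map_one, map_pow, map_natCast]
      ring
    rw [e]
    exact Q.sub_mem hmem (Q.mul_mem_left _ hw)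
  rw [hQq.over]
  exact h3

/-- Variant of `thaine_core_of_hilbert90` with the ramification hypotheses stated for
`Ideal.ramificationIdx` (the length-based index `Q.ramificationIdx (𝓞 K)`). -/
theorem thaine_core_of_hilbert90' [IsGalois K K'] (l : ℕ) (τ : K' ≃ₐ[K] K')
    (hgen : ∀ σ : K' ≃ₐ[K] K', σ ∈ Subgroup.zpowers τ) (hdeg : Module.finrank K K' = l - 1)
    (ω : 𝓞 K') (s : ℕ) (hτω : galRestrict (𝓞 K) K K' (𝓞 K') τ ω = ω ^ s)
    (z : 𝓞 K) (b : 𝓞 K') (hξ : IsUnit (1 + algebraMap (𝓞 K) (𝓞 K') z * ω)) (hb : b ≠ 0)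
    (hτb : (1 + algebraMap (𝓞 K) (𝓞 K') z * ω) * galRestrict (𝓞 K) K K' (𝓞 K') τ b = b)
    (hun : ∀ (q : Ideal (𝓞 K)) (Q : Ideal (𝓞 K')), q.IsPrime → q ≠ ⊥ → Q.IsPrime → Q.LiesOver q →
      (l : 𝓞 K) ∉ q → Q.ramificationIdx (𝓞 K) = 1)
    (hram : ∀ (q : Ideal (𝓞 K)) (Q : Ideal (𝓞 K')), q.IsPrime → q ≠ ⊥ → Q.IsPrime → Q.LiesOver q →
      (l : 𝓞 K) ∈ q → Q.ramificationIdx (𝓞 K) = l - 1 ∧ ω - 1 ∈ Q ∧ ω - 1 ∉ Q ^ 2 ∧
        ∀ x : 𝓞 K', galRestrict (𝓞 K) K K' (𝓞 K') τ x - x ∈ Q) :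
    ∃ γ : 𝓞 K, γ ≠ 0 ∧
      (∀ q : IsDedekindDomain.HeightOneSpectrum (𝓞 K), (l : 𝓞 K) ∉ q.asIdeal →
        (l - 1) ∣ multiplicity q.asIdeal (Ideal.span {γ})) ∧
      (∀ q : IsDedekindDomain.HeightOneSpectrum (𝓞 K), (l : 𝓞 K) ∈ q.asIdeal →
        (1 + z) * (s : 𝓞 K) ^ multiplicity q.asIdeal (Ideal.span {γ}) - 1 ∈ q.asIdeal) := by
  refine thaine_core_of_hilbert90 l τ hgen hdeg ω s hτω z b hξ hb hτb ?_ ?_
  · intro q Q hq hq0 hQ hQq hlq
    rw [Ideal.ramificationIdx'_eq_ramificationIdx q Q hq0]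
    exact hun q Q hq hq0 hQ hQq hlq
  · intro q Q hq hq0 hQ hQq hlq
    rw [Ideal.ramificationIdx'_eq_ramificationIdx q Q hq0]
    exact hram q Q hq hq0 hQ hQq hlq

end norm

end Fermat.Agent.S14.Thaine.Valuations

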