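import Fermat.Agent.S14.Thaine.Norm
import Fermat.Agent.S14.Thaine.TrivAct
import Fermat.Agent.S14.Thaine.Ram
import Fermat.Agent.S14.Thaine.Ramification
import Fermat.Agent.S14.Thaine.Valuations

/-!
# S14, package T: Thaine's relation (`thaine_core`)

For `K = ℚ(ζ_p)`, `p` odd, and a prime `l ≡ 1 mod p`, there are `g : ℤ` and `γ ≠ 0` in `𝓞 K` with
* `(l - 1) ∣ ord_q γ` for every prime `q ∌ l` of `𝓞 K`;
* `(1 + ζ) * g ^ (ord_q γ) ≡ 1 mod q` for every prime `q ∋ l`.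
-/

set_option autoImplicit false

open NumberField

namespace Fermat.Agent.S14.Thaine.Core

open Fermat.Agent.S14.Thaine

theorem thaine_core_gen {p : ℕ} [hp : Fact p.Prime] {K : Type} [Field K] [NumberField K]
    [IsCyclotomicExtension {p} ℚ K] {ζ : K} (hp2 : p ≠ 2) (hζ : IsPrimitiveRoot ζ p)
    (l : ℕ) [hl : Fact l.Prime] (hdvd : p ∣ l - 1) (z : 𝓞 K) (hz : (z : K) = ζ) :
    ∃ (g : ℤ) (γ : 𝓞 K), γ ≠ 0 ∧
      (∀ q : IsDedekindDomain.HeightOneSpectrum (𝓞 K), (l : 𝓞 K) ∉ q.asIdeal →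
        (l - 1) ∣ multiplicity q.asIdeal (Ideal.span {γ})) ∧
      (∀ q : IsDedekindDomain.HeightOneSpectrum (𝓞 K), (l : 𝓞 K) ∈ q.asIdeal →
        (1 + z) * (g : 𝓞 K) ^ multiplicity q.asIdeal (Ideal.span {γ}) - 1 ∈ q.asIdeal) := by
  have hpl : p ≠ l := by
    rintro rfl
    have := Nat.le_of_dvd (Nat.sub_pos_of_lt hp.out.one_lt) hdvd
    have := hp.out.one_lt
    omega
  have : NeZero l := ⟨hl.out.ne_zero⟩
  have : NeZero p := ⟨hp.out.ne_zero⟩
  let L := CyclotomicField l K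
  have hcyc : IsCyclotomicExtension {p * l} ℚ L := Norm.isCyclotomicExtension_mul K L hpl
  have hgal : IsGalois K L := IsCyclotomicExtension.isGalois {l} K L
  have hζl : IsPrimitiveRoot (IsCyclotomicExtension.zeta l K L) l :=
    IsCyclotomicExtension.zeta_spec l K L
  set ζl : L := IsCyclotomicExtension.zeta l K L with hζl_def
  obtain ⟨τ, s, β, hτ, hτζ, hβ0, hβ⟩ := Norm.exists_hilbert90 (p := p) hp2 hdvd hζ hζl
  set ω : 𝓞 L := hζl.toInteger with hω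
  have hωprim : IsPrimitiveRoot ω l := hζl.toInteger_isPrimitiveRoot
  have hτω : galRestrict (𝓞 K) K L (𝓞 L) τ ω = ω ^ s := by
    apply RingOfIntegers.ext
    have h1 : ((galRestrict (𝓞 K) K L (𝓞 L) τ ω : 𝓞 L) : L) = τ (ω : L) :=
      algebraMap_galRestrict_apply (𝓞 K) τ ω
    rw [h1]
    exact hτζ
  have hξcoe : ((1 + algebraMap (𝓞 K) (𝓞 L) z * ω : 𝓞 L) : L) = 1 + algebraMap K L ζ * ζl := by
    rw [← hz]
    rfl
  have hξ : IsUnit (1 + algebraMap (𝓞 K) (𝓞 L) z * ω) := by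
    rw [← RingOfIntegers.isUnit_norm_of_isGalois K]
    have : RingOfIntegers.norm K (1 + algebraMap (𝓞 K) (𝓞 L) z * ω) = 1 := by
      apply RingOfIntegers.ext
      rw [RingOfIntegers.coe_norm, hξcoe]
      exact Norm.norm_one_add_mul (p := p) hp2 hdvd hζ hζl
    rw [this]; exact isUnit_one
  have hτb : (1 + algebraMap (𝓞 K) (𝓞 L) z * ω) * galRestrict (𝓞 K) K L (𝓞 L) τ β = β := by
    apply RingOfIntegers.ext
    change algebraMap (𝓞 L) L ((1 + algebraMap (𝓞 K) (𝓞 L) z * ω) *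
      galRestrict (𝓞 K) K L (𝓞 L) τ β) = (β : L)
    rw [map_mul, algebraMap_galRestrict_apply]
    have : algebraMap (𝓞 L) L (1 + algebraMap (𝓞 K) (𝓞 L) z * ω) = 1 + algebraMap K L ζ * ζl :=
      hξcoe
    rw [this]
    exact hβ
  have hmemL : ∀ (q : Ideal (𝓞 K)) (Q : Ideal (𝓞 L)), Q.LiesOver q →
      ((l : 𝓞 L) ∈ Q ↔ (l : 𝓞 K) ∈ q) := by
    intro q Q hQq
    rw [hQq.over, Ideal.under_def, Ideal.mem_comap, map_natCast]
  obtain ⟨γ, hγ, h1, h2⟩ := Valuations.thaine_core_of_hilbert90' (K := K) (K' := L) l τ hτ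
    (Norm.finrank_eq (p := p) K L hpl) ω s hτω z β hξ hβ0 hτb
    (by
      intro q Q hq hq0 hQ hQq hlq
      have hQ0 : Q ≠ ⊥ := Ideal.ne_bot_of_liesOver_of_ne_bot hq0 Q
      exact Ram.ramificationIdx_of_not_mem (p := p) hpl Q hQ0
        (fun h => hlq ((hmemL q Q hQq).1 h)))
    (by
      intro q Q hq hq0 hQ hQq hlq
      have hlQ : (l : 𝓞 L) ∈ Q := (hmemL q Q hQq).2 hlq
      have hmem := TrivAct.zeta_sub_one_mem hωprim Q hlQ
      refine ⟨Ram.ramificationIdx_of_mem (p := p) hpl Q hlQ, hmem,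
        (Ramification.zeta_sub_one_mem p l hpl L Q hlQ hζl).2, fun x => ?_⟩
      exact TrivAct.galRestrict_sub_mem (p := p) hpl hζ hωprim Q hmem τ x)
  exact ⟨(s : ℤ), γ, hγ, h1, fun q hq => by simpa using h2 q hq⟩

/-- Thaine's relation, with `ζ` viewed in `𝓞 K` via `IsPrimitiveRoot.toInteger`. -/
theorem thaine_core {p : ℕ} [hp : Fact p.Prime] {K : Type} [Field K] [NumberField K]
    [IsCyclotomicExtension {p} ℚ K] {ζ : K} [NeZero p] (hp2 : p ≠ 2) (hζ : IsPrimitiveRoot ζ p)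
    {l : ℕ} [hl : Fact l.Prime] (hdvd : p ∣ l - 1) :
    ∃ (g : ℤ) (γ : 𝓞 K), γ ≠ 0 ∧
      (∀ q : IsDedekindDomain.HeightOneSpectrum (𝓞 K), (l : 𝓞 K) ∉ q.asIdeal →
        (l - 1) ∣ multiplicity q.asIdeal (Ideal.span {γ})) ∧
      (∀ q : IsDedekindDomain.HeightOneSpectrum (𝓞 K), (l : 𝓞 K) ∈ q.asIdeal →
        (1 + hζ.toInteger) * (g : 𝓞 K) ^ multiplicity q.asIdeal (Ideal.span {γ}) - 1
          ∈ q.asIdeal) :=
  thaine_core_gen hp2 hζ l hdvd hζ.toInteger rfl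

end Fermat.Agent.S14.Thaine.Core
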