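import Mathlib

/-!
# S14, package T1: the cyclotomic extension `K(ζ_ℓ)/K`, the norm of `1 + ζ_p ζ_ℓ`, Hilbert 90

`K` is the `p`-th cyclotomic field, `L` any field with `[IsCyclotomicExtension {ℓ} K L]`
(for instance `CyclotomicField ℓ K`), `ℓ ≠ p` prime.

* `isCyclotomicExtension_mul` : `L` is the `p * ℓ`-th cyclotomic extension of `ℚ`.
* `finrank_eq` : `[L : K] = ℓ - 1`.
* `irreducible_cyclotomic` : `Φ_ℓ` is irreducible over `K`.
* `isCyclic_gal` : `Gal(L/K)` is cyclic.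
* `norm_one_add_mul` : `N_{L/K}(1 + ζ_p ζ_ℓ) = 1` if `p ∣ ℓ - 1`, `p` odd.
* `exists_hilbert90` : a generator `τ` of `Gal(L/K)` with `τ ζ_ℓ = ζ_ℓ ^ s` and `β ≠ 0` in `𝓞 L`
  with `(1 + ζ_p ζ_ℓ) * τ β = β`.
* `associated_norm_pow` : then `N_{L/K}(β)` is associated to `β ^ (ℓ - 1)` in `𝓞 L`.
-/

set_option autoImplicit false

open NumberField Polynomial

namespace Fermat.Agent.S14.Thaine.Norm

theorem isPrimitiveRoot_mul_of_coprime {M : Type*} [CommMonoid M] {a b : M} {m n : ℕ}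
    (ha : IsPrimitiveRoot a m) (hb : IsPrimitiveRoot b n) (h : Nat.Coprime m n) :
    IsPrimitiveRoot (a * b) (m * n) := by
  have h1 : orderOf a = m := ha.eq_orderOf.symm
  have h2 : orderOf b = n := hb.eq_orderOf.symm
  have h3 : orderOf (a * b) = m * n := by
    rw [← h1, ← h2]
    exact (Commute.all a b).orderOf_mul_eq_mul_orderOf_of_coprime (by rw [h1, h2]; exact h)
  rw [← h3]
  exact IsPrimitiveRoot.orderOf (a * b)

variable {p ℓ : ℕ} [hp : Fact p.Prime] [hl : Fact ℓ.Prime]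

/-- `K(ζ_ℓ)` is the `pℓ`-th cyclotomic field. -/
theorem isCyclotomicExtension_mul (K L : Type) [Field K] [NumberField K] [Field L] [NumberField L]
    [Algebra K L] [IsCyclotomicExtension {p} ℚ K] [IsCyclotomicExtension {ℓ} K L] (hpl : p ≠ ℓ) :
    IsCyclotomicExtension {p * ℓ} ℚ L := by
  have : NeZero p := ⟨hp.out.ne_zero⟩
  have : NeZero ℓ := ⟨hl.out.ne_zero⟩
  have h1 : IsCyclotomicExtension ({p} ∪ {ℓ}) ℚ L :=
    IsCyclotomicExtension.trans (S := {p}) (T := {ℓ}) ℚ K L (algebraMap K L).injective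
  have hcop : Nat.Coprime p ℓ := (Nat.coprime_primes hp.out hl.out).2 hpl
  obtain ⟨ζp, hζp⟩ := IsCyclotomicExtension.exists_isPrimitiveRoot ℚ L
    (S := {p} ∪ {ℓ}) (n := p) (by simp) hp.out.ne_zero
  obtain ⟨ζl, hζl⟩ := IsCyclotomicExtension.exists_isPrimitiveRoot ℚ L
    (S := {p} ∪ {ℓ}) (n := ℓ) (by simp) hl.out.ne_zero
  have hprod : IsPrimitiveRoot (ζp * ζl) (p * ℓ) := isPrimitiveRoot_mul_of_coprime hζp hζl hcop
  have h2 : IsCyclotomicExtension ({p} ∪ {ℓ} ∪ {p * ℓ}) ℚ L :=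
    IsCyclotomicExtension.union_of_isPrimitiveRoot _ ℚ L hprod
  have hne : p * ℓ ≠ 0 := Nat.mul_ne_zero hp.out.ne_zero hl.out.ne_zero
  have h3 : IsCyclotomicExtension ({p * ℓ} ∪ {p} ∪ {ℓ}) ℚ L := by
    have : ({p * ℓ} ∪ {p} ∪ {ℓ} : Set ℕ) = {p} ∪ {ℓ} ∪ {p * ℓ} := by
      ext x; simp only [Set.mem_union, Set.mem_singleton_iff]; tauto
    rw [this]; exact h2
  have h4 : IsCyclotomicExtension ({p * ℓ} ∪ {p}) ℚ L :=
    (IsCyclotomicExtension.iff_union_of_dvd ℚ L (S := {p * ℓ} ∪ {p}) (n := ℓ)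
      ⟨p * ℓ, by simp, hne, dvd_mul_left _ _⟩).2 h3
  exact (IsCyclotomicExtension.iff_union_of_dvd ℚ L (S := {p * ℓ}) (n := p)
      ⟨p * ℓ, by simp, hne, dvd_mul_right _ _⟩).2 h4

/-- `[K(ζ_ℓ) : K] = ℓ - 1`. -/
theorem finrank_eq (K L : Type) [Field K] [NumberField K] [Field L] [NumberField L]
    [Algebra K L] [IsCyclotomicExtension {p} ℚ K] [IsCyclotomicExtension {ℓ} K L] (hpl : p ≠ ℓ) :
    Module.finrank K L = ℓ - 1 := by
  have : NeZero p := ⟨hp.out.ne_zero⟩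
  have : NeZero ℓ := ⟨hl.out.ne_zero⟩
  have : NeZero (p * ℓ) := ⟨Nat.mul_ne_zero hp.out.ne_zero hl.out.ne_zero⟩
  have := isCyclotomicExtension_mul (p := p) (ℓ := ℓ) K L hpl
  have hcop : Nat.Coprime p ℓ := (Nat.coprime_primes hp.out hl.out).2 hpl
  have h1 : Module.finrank ℚ L = (p * ℓ).totient :=
    IsCyclotomicExtension.Rat.finrank (p * ℓ) L
  have h2 : Module.finrank ℚ K = p.totient := IsCyclotomicExtension.Rat.finrank p K
  have h3 := Module.finrank_mul_finrank ℚ K L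
  rw [h1, h2, Nat.totient_mul hcop, Nat.totient_prime hp.out, Nat.totient_prime hl.out] at h3
  exact Nat.eq_of_mul_eq_mul_left (Nat.sub_pos_of_lt hp.out.one_lt) h3

/-- `Φ_ℓ` is irreducible over `K = ℚ(ζ_p)`. -/
theorem irreducible_cyclotomic (K : Type) [Field K] [NumberField K]
    [IsCyclotomicExtension {p} ℚ K] (hpl : p ≠ ℓ) : Irreducible (cyclotomic ℓ K) := by
  have : NeZero ℓ := ⟨hl.out.ne_zero⟩
  have hζ := IsCyclotomicExtension.zeta_spec ℓ K (CyclotomicField ℓ K)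
  set ζ' := IsCyclotomicExtension.zeta ℓ K (CyclotomicField ℓ K) with hζ'
  have hint : IsIntegral K ζ' := Algebra.IsIntegral.isIntegral ζ'
  have hdvd : minpoly K ζ' ∣ cyclotomic ℓ K := by
    apply minpoly.dvd
    have := hζ.isRoot_cyclotomic hl.out.pos
    rw [← map_cyclotomic ℓ (algebraMap K (CyclotomicField ℓ K)), IsRoot.def, eval_map,
      ← aeval_def] at this
    exact this
  have hdeg : (minpoly K ζ').natDegree = ℓ - 1 := by
    rw [← finrank_eq (p := p) K (CyclotomicField ℓ K) hpl, (hζ.powerBasis K).finrank,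
      IsPrimitiveRoot.powerBasis_dim]
  have heq : minpoly K ζ' = cyclotomic ℓ K := by
    refine (eq_of_monic_of_dvd_of_natDegree_le (minpoly.monic hint) (cyclotomic.monic ℓ K)
      hdvd ?_).symm
    rw [hdeg, natDegree_cyclotomic, Nat.totient_prime hl.out]
  rw [← heq]
  exact minpoly.irreducible hint

/-- `N_{L/K}(a - ζ_ℓ) = Φ_ℓ(a)`. -/
theorem norm_algebraMap_sub {K L : Type} [Field K] [NumberField K] [Field L] [NumberField L]
    [Algebra K L] [IsCyclotomicExtension {p} ℚ K] [IsCyclotomicExtension {ℓ} K L] (hpl : p ≠ ℓ)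
    {ζl : L} (hζl : IsPrimitiveRoot ζl ℓ) (a : K) :
    Algebra.norm K (algebraMap K L a - ζl) = eval a (cyclotomic ℓ K) := by
  have : NeZero ℓ := ⟨hl.out.ne_zero⟩
  have hirr := irreducible_cyclotomic (p := p) (ℓ := ℓ) K hpl
  classical
  let pb := hζl.powerBasis K
  have hgen : pb.gen = ζl := hζl.powerBasis_gen K
  rw [Algebra.norm_eq_matrix_det pb.basis, map_sub, AlgHom.commutes,
    hζl.minpoly_eq_cyclotomic_of_irreducible hirr, ← hgen, ← charpoly_leftMulMatrix pb,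
    Matrix.eval_charpoly]
  rfl

/-- `N_{L/K}(1 + ζ_p ζ_ℓ) = 1` when `ℓ ≡ 1 mod p`, `p` odd. -/
theorem norm_one_add_mul {K L : Type} [Field K] [NumberField K] [Field L] [NumberField L]
    [Algebra K L] [IsCyclotomicExtension {p} ℚ K] [IsCyclotomicExtension {ℓ} K L]
    (hp2 : p ≠ 2) (hdvd : p ∣ ℓ - 1)
    {ζ : K} (hζ : IsPrimitiveRoot ζ p) {ζl : L} (hζl : IsPrimitiveRoot ζl ℓ) :
    Algebra.norm K (1 + algebraMap K L ζ * ζl) = 1 := by
  have hpl : p ≠ ℓ := by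
    rintro rfl
    have := Nat.le_of_dvd (Nat.sub_pos_of_lt hp.out.one_lt) hdvd
    have := hp.out.one_lt
    omega
  have hζ0 : ζ ≠ 0 := hζ.ne_zero hp.out.ne_zero
  have hℓodd : Odd ℓ := by
    rcases hl.out.eq_two_or_odd' with h | h
    · subst h
      have := Nat.le_of_dvd (by norm_num) hdvd
      have := hp.out.two_le
      omega
    · exact h
  have hpodd : Odd p := hp.out.odd_of_ne_two hp2
  have h1 : (1 : L) + algebraMap K L ζ * ζl
      = algebraMap K L (-ζ) * (algebraMap K L (-ζ⁻¹) - ζl) := by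
    rw [map_neg, map_neg, map_inv₀]
    have : algebraMap K L ζ ≠ 0 := by simpa using hζ0
    field_simp
    ring
  have hζℓ : ζ ^ (ℓ - 1) = 1 := by
    obtain ⟨k, hk⟩ := hdvd
    rw [hk, pow_mul, hζ.pow_eq_one, one_pow]
  have hev : eval (-ζ⁻¹) (cyclotomic ℓ K) = 1 := by
    have h2 := congrArg (eval (-ζ⁻¹)) (cyclotomic_prime_mul_X_sub_one K ℓ)
    simp only [eval_mul, eval_sub, eval_X, eval_one, eval_pow] at h2
    have hy : (-ζ⁻¹) ^ ℓ = -ζ⁻¹ := by
      rw [hℓodd.neg_pow, inv_pow]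
      congr 2
      have : ζ ^ ℓ = ζ ^ (ℓ - 1) * ζ := by
        rw [← pow_succ]; congr 1; have := hl.out.pos; omega
      rw [this, hζℓ, one_mul]
    rw [hy] at h2
    have hne : -ζ⁻¹ - 1 ≠ 0 := by
      intro h
      have h3 : ζ = -1 := by
        have : ζ⁻¹ = -1 := by linear_combination -h
        rw [← inv_inv ζ, this]; norm_num
      have h4 := hζ.pow_eq_one
      rw [h3, hpodd.neg_one_pow] at h4
      norm_num at h4
    exact mul_right_cancel₀ hne (by rw [h2, one_mul])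
  rw [h1, map_mul, Algebra.norm_algebraMap, norm_algebraMap_sub (p := p) hpl hζl, hev, mul_one,
    finrank_eq (p := p) K L hpl]
  have heven : Even (ℓ - 1) := by
    obtain ⟨k, hk⟩ := hℓodd
    exact ⟨k, by omega⟩
  rw [heven.neg_pow, hζℓ]

/-- `Gal(K(ζ_ℓ)/K)` is cyclic. -/
theorem isCyclic_gal (K L : Type) [Field K] [Field L]
    [Algebra K L] [IsCyclotomicExtension {ℓ} K L] :
    IsCyclic (L ≃ₐ[K] L) := by
  have : NeZero ℓ := ⟨hl.out.ne_zero⟩
  have hζl := IsCyclotomicExtension.zeta_spec ℓ K L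
  exact isCyclic_of_injective (hζl.autToPow K) (hζl.autToPow_injective K)

/-- Integral Hilbert 90 for `ξ = 1 + ζ_p ζ_ℓ`. -/
theorem exists_hilbert90 {K L : Type} [Field K] [NumberField K] [Field L] [NumberField L]
    [Algebra K L] [IsCyclotomicExtension {p} ℚ K] [IsCyclotomicExtension {ℓ} K L]
    (hp2 : p ≠ 2) (hdvd : p ∣ ℓ - 1)
    {ζ : K} (hζ : IsPrimitiveRoot ζ p) {ζl : L} (hζl : IsPrimitiveRoot ζl ℓ) :
    ∃ (τ : L ≃ₐ[K] L) (s : ℕ) (β : 𝓞 L), (∀ x, x ∈ Subgroup.zpowers τ) ∧ τ ζl = ζl ^ s ∧ β ≠ 0 ∧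
      (1 + algebraMap K L ζ * ζl) * τ (β : L) = (β : L) := by
  have : NeZero ℓ := ⟨hl.out.ne_zero⟩
  have : NeZero p := ⟨hp.out.ne_zero⟩
  have hcyc : IsCyclic (L ≃ₐ[K] L) := isCyclic_gal (ℓ := ℓ) K L
  have hgal : IsGalois K L := IsCyclotomicExtension.isGalois {ℓ} K L
  obtain ⟨τ, hτ⟩ := IsCyclic.exists_generator (α := L ≃ₐ[K] L)
  have hξint : IsIntegral ℤ (1 + algebraMap K L ζ * ζl) := by
    refine IsIntegral.add isIntegral_one (IsIntegral.mul ?_ (hζl.isIntegral hl.out.pos))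
    exact (hζ.isIntegral hp.out.pos).map (IsScalarTower.toAlgHom ℤ K L)
  let ξ : 𝓞 L := ⟨1 + algebraMap K L ζ * ζl, hξint⟩
  have hnorm : Algebra.norm K (algebraMap (𝓞 L) L ξ) = 1 :=
    norm_one_add_mul (p := p) hp2 hdvd hζ hζl
  obtain ⟨β, hβ0, hβ⟩ := groupCohomology.exists_mul_galRestrict_of_norm_eq_one
    (A := 𝓞 K) (B := 𝓞 L) (K := K) (L := L) hτ hnorm
  refine ⟨τ, (hζl.autToPow K τ : ZMod ℓ).val, β, hτ, (hζl.autToPow_spec K τ).symm, hβ0, ?_⟩
  have := congrArg (algebraMap (𝓞 L) L) hβ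
  rw [map_mul, algebraMap_galRestrict_apply] at this
  exact this

open NumberField in
/-- If `ξ * τ β = β` with `N(ξ) = 1` and `τ` a generator, then `N(β) ~ β^(ℓ-1)` in `𝓞 L`. -/
theorem associated_norm_pow {K L : Type} [Field K] [NumberField K] [Field L] [NumberField L]
    [Algebra K L] [IsCyclotomicExtension {p} ℚ K] [IsCyclotomicExtension {ℓ} K L]
    (hpl : p ≠ ℓ) {τ : L ≃ₐ[K] L} (hτ : ∀ x, x ∈ Subgroup.zpowers τ) {ξ : L}
    (hξ : Algebra.norm K ξ = 1) {β : 𝓞 L} (hβ : ξ * τ (β : L) = (β : L)) (hξint : IsIntegral ℤ ξ) :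
    Associated (algebraMap (𝓞 K) (𝓞 L) (RingOfIntegers.norm K β)) (β ^ (ℓ - 1)) := by
  have : NeZero ℓ := ⟨hl.out.ne_zero⟩
  have hgal : IsGalois K L := IsCyclotomicExtension.isGalois {ℓ} K L
  let ξ' : 𝓞 L := ⟨ξ, hξint⟩
  have hξu : IsUnit ξ' := by
    rw [← RingOfIntegers.isUnit_norm_of_isGalois K]
    have : RingOfIntegers.norm K ξ' = 1 := by
      apply RingOfIntegers.ext
      rw [RingOfIntegers.coe_norm]
      exact hξ
    rw [this]; exact isUnit_one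
  let ρ := galRestrict (𝓞 K) K L (𝓞 L)
  have hτβ : Associated (ρ τ β) β := by
    obtain ⟨u, hu⟩ := hξu
    refine ⟨u, ?_⟩
    apply RingOfIntegers.ext
    rw [hu]
    change algebraMap (𝓞 L) L (ρ τ β * ξ') = (β : L)
    rw [map_mul, mul_comm]
    have : algebraMap (𝓞 L) L (ρ τ β) = τ (β : L) := algebraMap_galRestrict_apply (𝓞 K) τ β
    rw [this]
    exact hβ
  let S : Subgroup (L ≃ₐ[K] L) :=
    { carrier := {σ | Associated (ρ σ β) β}
      one_mem' := by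
        show Associated (ρ 1 β) β
        rw [map_one]; exact Associated.refl _
      mul_mem' := by
        intro a b ha hb
        show Associated (ρ (a * b) β) β
        rw [map_mul]
        have h1 : Associated (ρ a (ρ b β)) (ρ a β) :=
          Associated.map (ρ a : 𝓞 L ≃ₐ[𝓞 K] 𝓞 L).toRingEquiv.toMonoidHom hb
        exact h1.trans ha
      inv_mem' := by
        intro a ha
        show Associated (ρ a⁻¹ β) β
        have h1 : Associated (ρ a⁻¹ (ρ a β)) (ρ a⁻¹ β) :=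
          Associated.map (ρ a⁻¹ : 𝓞 L ≃ₐ[𝓞 K] 𝓞 L).toRingEquiv.toMonoidHom ha
        have h2 : ρ a⁻¹ (ρ a β) = β := by
          rw [← AlgEquiv.mul_apply, ← map_mul, inv_mul_cancel, map_one]; rfl
        rw [h2] at h1
        exact h1.symm }
  have hall : ∀ σ : L ≃ₐ[K] L, Associated (ρ σ β) β := by
    intro σ
    have h1 : Subgroup.zpowers τ ≤ S := by
      rw [Subgroup.zpowers_le]; exact hτβ
    exact h1 (hτ σ)
  have hprod : algebraMap (𝓞 K) (𝓞 L) (RingOfIntegers.norm K β) = ∏ σ : L ≃ₐ[K] L, ρ σ β := by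
    apply RingOfIntegers.ext
    rw [RingOfIntegers.coe_algebraMap_norm, Algebra.norm_eq_prod_automorphisms]
    change _ = algebraMap (𝓞 L) L (∏ σ : L ≃ₐ[K] L, ρ σ β)
    rw [map_prod]
    refine Finset.prod_congr rfl (fun σ _ => ?_)
    exact (algebraMap_galRestrict_apply (𝓞 K) σ β).symm
  rw [hprod]
  have hcard : Fintype.card (L ≃ₐ[K] L) = ℓ - 1 := by
    rw [← Nat.card_eq_fintype_card, IsGalois.card_aut_eq_finrank, finrank_eq (p := p) K L hpl]
  have h3 : Associated (∏ σ : L ≃ₐ[K] L, ρ σ β) (∏ _σ : L ≃ₐ[K] L, β) :=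
    Associated.prod _ _ _ (fun σ _ => hall σ)
  rw [Finset.prod_const, Finset.card_univ, hcard] at h3
  exact h3

end Fermat.Agent.S14.Thaine.Norm
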